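import Fermat.Agent.ModFn.ModR
import Fermat.Agent.S24Lib.Ident
import Fermat.Agent.JZ.ModularComm

/-!
# The Atkin-Lehner involution `w_ℓ` on the function field of `X₀(Nℓ)`
-/

set_option autoImplicit false
set_option linter.unusedSectionVars false
set_option linter.style.haveILetI false

open AlgebraicCurve ModularCurve Fermat.Agent.JZ Fermat.Agent.ModFn IntermediateField
  UpperHalfPlane MvPolynomial
open scoped IntermediateField.algebraAdjoinAdjoin MatrixGroups

namespace Fermat.Agent.ESh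

section Abstract

variable {K P Ω : Type*} [Field K] [CommRing P] [Algebra K P] [Field Ω] [Algebra K Ω]

/-- descend an involution of a presentation to the field generated by its image. -/
theorem exists_algHom_of_involution (ev : P →ₐ[K] Ω) (s : P →ₐ[K] P) (hs : ∀ p, s (s p) = p)
    (h : ∀ p, ev p = 0 → ev (s p) = 0) (S : Set Ω) (hS : Algebra.adjoin K S = ev.range) :
    ∃ w : IntermediateField.adjoin K S →ₐ[K] IntermediateField.adjoin K S,
      ∀ (p : P) (x : IntermediateField.adjoin K S), (x : Ω) = ev p → (w x : Ω) = ev (s p) := by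
  classical
  have hsurj : Function.Surjective ev.rangeRestrict := ev.rangeRestrict_surjective
  let g0 : (P ⧸ RingHom.ker ev.rangeRestrict) →ₐ[K] Ω :=
    Ideal.Quotient.liftₐ (RingHom.ker ev.rangeRestrict) (ev.comp s) (by
      intro p hp
      apply h
      exact congrArg Subtype.val hp)
  let g1 : ev.range →ₐ[K] Ω := g0.comp (Ideal.quotientKerAlgEquivOfSurjective hsurj).symm.toAlgHom
  have hg1 : ∀ p, g1 (ev.rangeRestrict p) = ev (s p) := by
    intro p
    have : (Ideal.quotientKerAlgEquivOfSurjective hsurj).symm (ev.rangeRestrict p) =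
        Ideal.Quotient.mk _ p := by
      rw [AlgEquiv.symm_apply_eq]
      rfl
    change g0 ((Ideal.quotientKerAlgEquivOfSurjective hsurj).symm (ev.rangeRestrict p)) = _
    rw [this]
    rfl
  let g : Algebra.adjoin K S →ₐ[K] Ω := g1.comp (Subalgebra.equivOfEq _ _ hS).toAlgHom
  have hg : ∀ (p : P) (y : Algebra.adjoin K S), (y : Ω) = ev p → g y = ev (s p) := by
    intro p y hy
    rw [← hg1 p]
    change g1 ((Subalgebra.equivOfEq _ _ hS) y) = _
    congr 1
    exact Subtype.ext hy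
  have hrep : ∀ y : Algebra.adjoin K S, ∃ p, (y : Ω) = ev p := by
    intro y
    have hy : (y : Ω) ∈ ev.range := hS ▸ y.2
    obtain ⟨p, hp⟩ := hy
    exact ⟨p, hp.symm⟩
  have hinj : Function.Injective g := by
    rw [injective_iff_map_eq_zero]
    intro y hy
    obtain ⟨p, hp⟩ := hrep y
    rw [hg p y hp] at hy
    have := h _ hy
    rw [hs] at this
    apply Subtype.ext
    rw [hp, this]
    rfl
  let w0 : IntermediateField.adjoin K S →ₐ[K] Ω := IsFractionRing.liftAlgHom hinj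
  have hw0 : ∀ y : Algebra.adjoin K S,
      w0 (algebraMap (Algebra.adjoin K S) (IntermediateField.adjoin K S) y) = g y := fun y =>
    IsFractionRing.lift_algebraMap hinj y
  have hle : ev.range ≤ (IntermediateField.adjoin K S).toSubalgebra := by
    rw [← hS]
    exact IntermediateField.algebra_adjoin_le_adjoin K S
  have hgm : ∀ y, g y ∈ IntermediateField.adjoin K S := by
    intro y
    obtain ⟨p, hp⟩ := hrep y
    rw [hg p y hp]
    exact hle ⟨s p, rfl⟩
  have hmem : ∀ x, w0 x ∈ IntermediateField.adjoin K S := by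
    intro x
    obtain ⟨a, b, -, rfl⟩ := IsFractionRing.div_surjective (A := Algebra.adjoin K S) x
    rw [map_div₀, hw0, hw0]
    exact div_mem (hgm a) (hgm b)
  refine ⟨w0.codRestrict (IntermediateField.adjoin K S).toSubalgebra hmem, fun p x hx => ?_⟩
  change w0 x = _
  have h1 : (x : Ω) ∈ Algebra.adjoin K S := by rw [hS, hx]; exact ⟨p, rfl⟩
  have h2 : x = algebraMap (Algebra.adjoin K S) (IntermediateField.adjoin K S) ⟨x, h1⟩ :=
    Subtype.ext rfl
  rw [h2, hw0]
  exact hg p _ hx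

end Abstract

section Analytic

variable (N ℓ : ℕ) [NeZero N] [NeZero ℓ]

/-- indices of the generators of the function field of level `Nℓ` -/
abbrev AIdx : Type := {d : ℕ // d ∣ N} × Bool

/-- the exponent of a generator -/
def aexp (i : AIdx N) : ℕ := if i.2 then i.1 * ℓ else i.1

instance (i : AIdx N) : NeZero (aexp N ℓ i) := ⟨by
  have h1 : (i.1 : ℕ) ≠ 0 := fun h => by
    have := i.1.2
    rw [h, zero_dvd_iff] at this
    exact NeZero.ne N this
  rw [aexp]
  split_ifs
  · exact mul_ne_zero h1 (NeZero.ne ℓ)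
  · exact h1⟩

/-- exchange of the two kinds of generators -/
def aswap (i : AIdx N) : AIdx N := (i.1, !i.2)

theorem aswap_aswap (i : AIdx N) : aswap N (aswap N i) = i := by
  rcases i with ⟨d, b⟩
  simp [aswap]

theorem act_eq_of_formula (A B : Matrix (Fin 2) (Fin 2) ℤ) (hA : 0 < A.det) (hB : 0 < B.det)
    (c : ℤ) (hc : c ≠ 0) (h : A = c • B) (τ : ℍ) : act A τ = act B τ := by
  apply UpperHalfPlane.ext
  rw [coe_act A hA, coe_act B hB, h]
  simp only [Matrix.smul_apply, smul_eq_mul]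
  push_cast
  have hc' : (c : ℂ) ≠ 0 := by exact_mod_cast hc
  have h1 : ((c : ℂ) * B 0 0 * τ + c * B 0 1) = c * (B 0 0 * τ + B 0 1) := by ring
  have h2 : ((c : ℂ) * B 1 0 * τ + c * B 1 1) = c * (B 1 0 * τ + B 1 1) := by ring
  rw [h1, h2, mul_div_mul_left _ _ hc']

/-- the Atkin-Lehner matrix exchanges `j(dτ)` and `j(dℓτ)`. -/
theorem exists_matrix (hcop : Nat.Coprime N ℓ) : ∃ W : Matrix (Fin 2) (Fin 2) ℤ,
    ∀ (i : AIdx N) (τ : ℍ), jd (aexp N ℓ i) (act W τ) = jd (aexp N ℓ (aswap N i)) τ := by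
  -- `ℓ e - N c = 1`
  obtain ⟨e, c, hec⟩ : ∃ e c : ℤ, ℓ * e - N * c = 1 := by
    have h1 : (Nat.gcd N ℓ : ℤ) = N * Nat.gcdA N ℓ + ℓ * Nat.gcdB N ℓ := Nat.gcd_eq_gcd_ab N ℓ
    rw [hcop] at h1
    exact ⟨Nat.gcdB N ℓ, -Nat.gcdA N ℓ, by push_cast at h1; linarith⟩
  have hℓ : (0 : ℤ) < ℓ := by exact_mod_cast Nat.pos_of_neZero ℓ
  let W : Matrix (Fin 2) (Fin 2) ℤ := !![(ℓ : ℤ), 1; N * ℓ * c, ℓ * e]
  have hWdet : W.det = ℓ := by
    rw [Matrix.det_fin_two_of]
    linear_combination (ℓ : ℤ) * hec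
  refine ⟨W, ?_⟩
  rintro ⟨⟨d, n, hn⟩, b⟩ τ
  have hd0 : d ≠ 0 := by rintro rfl; rw [zero_mul] at hn; exact NeZero.ne N hn
  have : NeZero d := ⟨hd0⟩
  have hdpos : (0 : ℤ) < d := by exact_mod_cast Nat.pos_of_ne_zero hd0
  have hNd : (N : ℤ) = d * n := by exact_mod_cast hn
  cases b with
  | false =>
    -- `diag(d,1) W = γ diag(dℓ, 1)`
    simp only [aexp, aswap, Bool.not_false, if_true, Bool.false_eq_true, if_false]
    let γ : SL(2, ℤ) := ⟨!![1, (d : ℤ); n * c, ℓ * e], by
      rw [Matrix.det_fin_two_of, one_mul]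
      linear_combination hec + c * hNd⟩
    have h1 : (!![(d : ℤ), 0; 0, 1] : Matrix (Fin 2) (Fin 2) ℤ) * W =
        (γ : Matrix (Fin 2) (Fin 2) ℤ) * !![((d * ℓ : ℕ) : ℤ), 0; 0, 1] := by
      simp only [W, γ]
      ext i j
      fin_cases i <;> fin_cases j <;>
        simp [Matrix.mul_apply, Fin.sum_univ_two]
      rw [hNd]; ring
    have hdet : (!![((d * ℓ : ℕ) : ℤ), 0; 0, 1] : Matrix (Fin 2) (Fin 2) ℤ).det ≠ 0 := by
      rw [det_diag]
      exact_mod_cast mul_ne_zero hd0 (NeZero.ne ℓ)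
    rw [jd, jd, ← act_mul _ _ (by rw [det_diag]; exact hdpos.ne') (by rw [hWdet]; exact hℓ.ne'),
      h1, act_coe_mul _ _ hdet, jH_smul]
  | true =>
    simp only [aexp, aswap, Bool.not_true, if_true, Bool.false_eq_true, if_false]
    let γ : SL(2, ℤ) := ⟨!![(ℓ : ℤ), (d : ℤ); n * c, e], by
      rw [Matrix.det_fin_two_of]
      linear_combination hec + c * hNd⟩
    have h1 : (!![((d * ℓ : ℕ) : ℤ), 0; 0, 1] : Matrix (Fin 2) (Fin 2) ℤ) * W =
        (ℓ : ℤ) • ((γ : Matrix (Fin 2) (Fin 2) ℤ) * !![(d : ℤ), 0; 0, 1]) := by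
      simp only [W, γ]
      ext i j
      fin_cases i <;> fin_cases j <;>
        simp [Matrix.mul_apply, Fin.sum_univ_two]
      · ring
      · ring
      · rw [hNd]; ring
    have hdet : (!![(d : ℤ), 0; 0, 1] : Matrix (Fin 2) (Fin 2) ℤ).det ≠ 0 := by
      rw [det_diag]
      exact_mod_cast hd0
    have hdet' : (!![((d * ℓ : ℕ) : ℤ), 0; 0, 1] : Matrix (Fin 2) (Fin 2) ℤ).det ≠ 0 := by
      rw [det_diag]
      exact_mod_cast mul_ne_zero hd0 (NeZero.ne ℓ)
    have hpos1 : 0 < (!![((d * ℓ : ℕ) : ℤ), 0; 0, 1] * W : Matrix (Fin 2) (Fin 2) ℤ).det := by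
      rw [Matrix.det_mul, det_diag, hWdet]
      have : (0 : ℤ) < ((d * ℓ : ℕ) : ℤ) := by push_cast; positivity
      positivity
    have hpos2 : 0 < ((γ : Matrix (Fin 2) (Fin 2) ℤ) * !![(d : ℤ), 0; 0, 1]).det := by
      rw [Matrix.det_mul, det_diag, γ.2, one_mul]
      exact hdpos
    rw [jd, jd, ← act_mul _ _ hdet' (by rw [hWdet]; exact hℓ.ne'),
      act_eq_of_formula _ _ hpos1 hpos2 ℓ hℓ.ne' h1, act_coe_mul _ _ hdet, jH_smul]

variable (K : Type*) [Field K] [Algebra K ℂ]

/-- evaluation of polynomials on `q`-expansions -/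
noncomputable def evS : MvPolynomial (AIdx N) K →ₐ[K] LaurentSeries K :=
  aeval fun i => qExpand K (aexp N ℓ i) (jqModC K)

/-- evaluation of polynomials on functions -/
noncomputable def evF : MvPolynomial (AIdx N) K →ₐ[K] (ℍ → ℂ) :=
  aeval fun i => jd (aexp N ℓ i)

theorem hasExp_evF (p : MvPolynomial (AIdx N) K) :
    HasExp 1 (evF N ℓ K p) (coeffMap (algebraMap K ℂ) (evS N ℓ K p)) := by
  induction p using MvPolynomial.induction_on with
  | C a =>
    rw [evF, evS, aeval_C, aeval_C]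
    rw [algebraMap_laurentSeries_eq_single, coeffMap_single]
    exact HasExp.const 1 (algebraMap K ℂ a)
  | add p q hp hq =>
    rw [map_add, map_add, map_add]
    exact hp.add hq
  | mul_X p i hp =>
    rw [map_mul, map_mul, map_mul]
    refine hp.mul ?_
    rw [evF, evS, aeval_X, aeval_X, ModFn.coeffMap_qExpand, ModFn.coeffMap_jqModC]
    exact hasExp_jd _

theorem evS_eq_zero_iff (p : MvPolynomial (AIdx N) K) : evS N ℓ K p = 0 ↔ evF N ℓ K p = 0 := by
  constructor
  · intro h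
    have h1 := hasExp_evF N ℓ K p
    rw [h, map_zero] at h1
    exact h1.eq_of_same (HasExp.zero 1)
  · intro h
    have h1 := hasExp_evF N ℓ K p
    rw [h] at h1
    apply coeffMap_injective (algebraMap K ℂ).injective
    rw [map_zero]
    exact h1.unique (HasExp.zero 1)

theorem evS_swap (hcop : Nat.Coprime N ℓ) (p : MvPolynomial (AIdx N) K) (hp : evS N ℓ K p = 0) :
    evS N ℓ K (rename (aswap N) p) = 0 := by
  obtain ⟨W, hW⟩ := exists_matrix N ℓ hcop
  rw [evS_eq_zero_iff] at hp ⊢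
  have h1 : (precomp (K := K) (act W)).comp (evF N ℓ K) = (evF N ℓ K).comp (rename (aswap N)) := by
    apply MvPolynomial.algHom_ext
    intro i
    rw [AlgHom.comp_apply, AlgHom.comp_apply, rename_X, evF, aeval_X, aeval_X]
    funext τ
    exact hW i τ
  have h2 := DFunLike.congr_fun h1 p
  rw [AlgHom.comp_apply, AlgHom.comp_apply, hp, map_zero] at h2
  exact h2.symm

end Analytic

section Final

variable (L : Type) [Field L] [Algebra ℚ L] [Algebra L ℂ] (N ℓ : ℕ) [NeZero N] [NeZero ℓ]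

theorem range_eq_gensK (hℓ : ℓ.Prime) (hN : ¬ ℓ ∣ N) :
    Set.range (fun i : AIdx N => qExpand L (aexp N ℓ i) (jqModC L)) =
      S24Lib.gensK L (N * ℓ) := by
  ext x
  constructor
  · rintro ⟨⟨⟨d, hd⟩, b⟩, rfl⟩
    refine ⟨aexp N ℓ (⟨d, hd⟩, b), inferInstance, ?_, rfl⟩
    rw [aexp]
    split_ifs
    · exact mul_dvd_mul_right hd ℓ
    · exact hd.trans (dvd_mul_right N ℓ)
  · rintro ⟨e, he, hdvd, rfl⟩
    by_cases h : ℓ ∣ e
    · obtain ⟨d, rfl⟩ := h
      have hd : d ∣ N := by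
        rw [mul_comm] at hdvd
        exact Nat.dvd_of_mul_dvd_mul_right hℓ.pos hdvd
      refine ⟨(⟨d, hd⟩, true), ?_⟩
      apply qExpand_congr
      simp [aexp, mul_comm]
    · have hd : e ∣ N := by
        apply Nat.Coprime.dvd_of_dvd_mul_right _ hdvd
        exact ((Nat.Prime.coprime_iff_not_dvd hℓ).2 h).symm
      refine ⟨(⟨e, hd⟩, false), ?_⟩
      apply qExpand_congr
      simp [aexp]

/-- **Atkin-Lehner**: the involution `w_ℓ` exchanging the two degeneracy maps. -/
theorem exists_atkinLehner (hℓ : ℓ.Prime) (hN : ¬ ℓ ∣ N) :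
    ∃ w : FN L (N * ℓ) →ₐ[L] FN L (N * ℓ),
      (∀ x, w (heckeAlphaBar L N ℓ x) = heckeBetaBar L N ℓ x) ∧
      (∀ x, w (heckeBetaBar L N ℓ x) = heckeAlphaBar L N ℓ x) := by
  classical
  have hcop : Nat.Coprime N ℓ := ((Nat.Prime.coprime_iff_not_dvd hℓ).2 hN).symm
  have hE : FN L (N * ℓ) = IntermediateField.adjoin L
      (Set.range (fun i : AIdx N => qExpand L (aexp N ℓ i) (jqModC L))) := by
    rw [range_eq_gensK L N ℓ hℓ hN]
    exact S24Lib.laurentBaseChange_eq L (N * ℓ)
  obtain ⟨w0, hw0⟩ := exists_algHom_of_involution (evS N ℓ L) (rename (aswap N))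
    (fun p => by
      rw [rename_rename]
      have : (aswap N ∘ aswap N : AIdx N → AIdx N) = id := funext (aswap_aswap N)
      rw [this, rename_id, AlgHom.id_apply]) (evS_swap N ℓ L hcop)
    (Set.range (fun i : AIdx N => qExpand L (aexp N ℓ i) (jqModC L)))
    (Algebra.adjoin_range_eq_range_aeval L _)
  obtain ⟨w, hw⟩ : ∃ w : FN L (N * ℓ) →ₐ[L] FN L (N * ℓ),
      ∀ (p : MvPolynomial (AIdx N) L) (x : FN L (N * ℓ)), (x : LaurentSeries L) = evS N ℓ L p →
        (w x : LaurentSeries L) = evS N ℓ L (rename (aswap N) p) := by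
    have h1 : ∀ E : IntermediateField L (LaurentSeries L), E = IntermediateField.adjoin L
        (Set.range (fun i : AIdx N => qExpand L (aexp N ℓ i) (jqModC L))) →
        ∃ w : E →ₐ[L] E, ∀ (p : MvPolynomial (AIdx N) L) (x : E),
          (x : LaurentSeries L) = evS N ℓ L p →
          (w x : LaurentSeries L) = evS N ℓ L (rename (aswap N) p) := by
      rintro _ rfl
      exact ⟨w0, hw0⟩
    exact h1 _ hE
  have hwX : ∀ (i : AIdx N) (x : FN L (N * ℓ)),
      (x : LaurentSeries L) = qExpand L (aexp N ℓ i) (jqModC L) →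
      (w x : LaurentSeries L) = qExpand L (aexp N ℓ (aswap N i)) (jqModC L) := by
    intro i x hx
    have h1 := hw (X i) x (by rw [hx, evS, aeval_X])
    rwa [rename_X, evS, aeval_X] at h1
  have hgen : FN L N = IntermediateField.adjoin L (S24Lib.gensK L N) :=
    S24Lib.laurentBaseChange_eq L N
  refine ⟨w, fun x => ?_, fun x => ?_⟩
  · have h1 : w.comp (heckeAlphaBar L N ℓ) = heckeBetaBar L N ℓ := by
      apply algHom_ext_of_eq_adjoin _ hgen
      rintro y ⟨d, hd, hdN, rfl⟩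
      apply Subtype.ext
      rw [AlgHom.comp_apply, coe_heckeBetaBar]
      rw [hwX (⟨d, hdN⟩, false) _ (by rw [coe_heckeAlphaBar]; apply qExpand_congr; simp [aexp])]
      rw [qExpand_qExpand]
      apply qExpand_congr
      simp [aexp, aswap, mul_comm]
    exact DFunLike.congr_fun h1 x
  · have h1 : w.comp (heckeBetaBar L N ℓ) = heckeAlphaBar L N ℓ := by
      apply algHom_ext_of_eq_adjoin _ hgen
      rintro y ⟨d, hd, hdN, rfl⟩
      apply Subtype.ext
      rw [AlgHom.comp_apply, coe_heckeAlphaBar]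
      rw [hwX (⟨d, hdN⟩, true) _ (by
        rw [coe_heckeBetaBar, qExpand_qExpand]; apply qExpand_congr; simp [aexp, mul_comm])]
      apply qExpand_congr
      simp [aexp, aswap]
    exact DFunLike.congr_fun h1 x

end Final

end Fermat.Agent.ESh
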