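import Fermat.Agent.ModFn.HasExp
import Fermat.Agent.JZ.ModularComm
import Fermat.Prelude.Def_ModularCurve_X0ModL

/-!
# The norm of `h(q^ℓ)` from level `Nℓ` to level `N`, on `q`-expansions
-/

set_option autoImplicit false
set_option linter.unusedSectionVars false
set_option linter.style.haveILetI false

open AlgebraicCurve ModularCurve Fermat.Agent.JZ Fermat.Agent.ModFn IntermediateField

namespace Fermat.Agent.ESh

section Abstract

variable {K L : Type*} [Field K] [Field L] [Algebra K L] [FiniteDimensional K L]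
  [Algebra.IsSeparable K L]

/-- The norm as a product over a full set of embeddings into a field `Ω`, indexed by a type of the
right cardinality. -/
theorem norm_eq_prod_of_injective {Ω : Type*} [Field Ω] (i : K →+* Ω) {ι : Type*} [Fintype ι]
    (hι : Fintype.card ι = Module.finrank K L) (σ : ι → L →+* Ω)
    (hσ : ∀ a (x : K), σ a (algebraMap K L x) = i x) (hinj : Function.Injective σ) (x : L) :
    i (Algebra.norm K x) = ∏ a, σ a x := by
  classical
  let Ω' := AlgebraicClosure Ω
  let e : Ω →+* Ω' := algebraMap Ω Ω'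
  letI : Algebra K Ω' := (e.comp i).toAlgebra
  let τ : ι → (L →ₐ[K] Ω') := fun a =>
    { e.comp (σ a) with
      commutes' := fun y => by
        change e (σ a (algebraMap K L y)) = e (i y)
        rw [hσ] }
  have hτ : Function.Injective τ := by
    intro a b hab
    apply hinj
    ext y
    have := DFunLike.congr_fun hab y
    exact e.injective this
  have hbij : Function.Bijective τ := by
    rw [Fintype.bijective_iff_injective_and_card]
    exact ⟨hτ, by rw [hι, AlgHom.card]⟩
  have h1 := Algebra.norm_eq_prod_embeddings K Ω' x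
  apply e.injective
  rw [map_prod]
  have h2 : e (i (Algebra.norm K x)) = algebraMap K Ω' (Algebra.norm K x) := rfl
  rw [h2, h1, ← (Equiv.ofBijective τ hbij).prod_comp]
  rfl

end Abstract

section Formal

variable {L : Type} [Field L] [Algebra ℚ L]

/-- if `ζ ^ (ℓ * n) = 1`-type twists fix series in `q ^ ℓ`. -/
theorem twist_qExpand {R : Type*} [CommRing R] {ℓ : ℕ} [NeZero ℓ] (ζ : Rˣ) (hζ : ζ ^ ℓ = 1)
    (f : LaurentSeries R) : twist ζ (qExpand R ℓ f) = qExpand R ℓ f := by
  ext n
  rw [twist_coeff]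
  by_cases hn : (ℓ : ℤ) ∣ n
  · obtain ⟨m, rfl⟩ := hn
    rw [zpow_mul, zpow_natCast, hζ, one_zpow, Units.val_one, one_mul]
  · rw [qExpand_coeff_of_not_dvd ℓ _ hn, mul_zero]

/-- The coefficient of `q^{-1}` in `j(q)`. -/
theorem coeff_jq_neg_one : (coeffEmb L jq).coeff (-1) = 1 := by
  have h := coeff_jqModC_neg_one ℚ
  change algebraMap ℚ L (jq.coeff (-1)) = 1
  have : jq.coeff (-1) = 1 := h
  rw [this, map_one]

/-- **Norm formula**: `N_{F_{Nℓ}/F_N} (h(q^ℓ)) = h(q^ℓ) ∏ h(ζ^i q^{1/ℓ})` (after `q ↦ q^ℓ`). -/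
theorem qExpand_normAlong {N ℓ : ℕ} [NeZero N] [NeZero ℓ] (hℓ : 1 < ℓ)
    (hfin : FiniteAlong L (heckeAlphaBar L N ℓ))
    (hdeg : finrankAlong L (heckeAlphaBar L N ℓ) = ℓ + 1)
    (w : FN L (N * ℓ) →ₐ[L] FN L (N * ℓ))
    (hα : ∀ x, w (heckeAlphaBar L N ℓ x) = heckeBetaBar L N ℓ x)
    (hβ : ∀ x, w (heckeBetaBar L N ℓ x) = heckeAlphaBar L N ℓ x)
    (ζ : Lˣ) (hζ : orderOf ζ = ℓ) (h : FN L N) :
    qExpand L ℓ (normAlong (heckeAlphaBar L N ℓ) (heckeBetaBar L N ℓ h) : LaurentSeries L) =
      qExpand L ℓ (qExpand L ℓ (h : LaurentSeries L)) *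
        ∏ i : Fin ℓ, twist (ζ ^ (i : ℕ)) (h : LaurentSeries L) := by
  classical
  letI := algebraAlong (heckeAlphaBar L N ℓ)
  haveI : Module.Finite (FN L N) (FN L (N * ℓ)) := hfin
  haveI : CharZero L := algebraRat.charZero L
  haveI : CharZero (FN L N) := charZero_of_injective_algebraMap (algebraMap L (FN L N)).injective
  have hζℓ : ζ ^ ℓ = 1 := by rw [← hζ]; exact pow_orderOf_eq_one ζ
  let i : FN L N →+* LaurentSeries L := (qExpand L ℓ).comp (FN L N).val.toRingHom
  let σ : Option (Fin ℓ) → (FN L (N * ℓ) →+* LaurentSeries L) := fun o =>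
    o.elim ((qExpand L ℓ).comp (FN L (N * ℓ)).val.toRingHom)
      (fun a => (twist (ζ ^ (a : ℕ))).comp ((FN L (N * ℓ)).val.comp w).toRingHom)
  have hσn : ∀ x : FN L (N * ℓ), σ none x = qExpand L ℓ (x : LaurentSeries L) := fun x => rfl
  have hσs : ∀ (a : Fin ℓ) (x : FN L (N * ℓ)),
      σ (some a) x = twist (ζ ^ (a : ℕ)) ((w x : FN L (N * ℓ)) : LaurentSeries L) :=
    fun a x => rfl
  have hζa : ∀ a : Fin ℓ, (ζ ^ (a : ℕ)) ^ ℓ = 1 := fun a => by
    rw [← pow_mul, mul_comm, pow_mul, hζℓ, one_pow]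
  have hcomm : ∀ a (x : FN L N), σ a (algebraMap (FN L N) (FN L (N * ℓ)) x) = i x := by
    intro a x
    have hx : algebraMap (FN L N) (FN L (N * ℓ)) x = heckeAlphaBar L N ℓ x := rfl
    cases a with
    | none => rw [hσn, hx, coe_heckeAlphaBar]; rfl
    | some a =>
      rw [hσs, hx, hα, coe_heckeBetaBar, twist_qExpand _ (hζa a)]
      rfl
  -- values on `h(q^ℓ)`
  have hvn : ∀ x : FN L N, σ none (heckeBetaBar L N ℓ x) =
      qExpand L ℓ (qExpand L ℓ (x : LaurentSeries L)) := fun x => by
    rw [hσn, coe_heckeBetaBar]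
  have hvs : ∀ (a : Fin ℓ) (x : FN L N), σ (some a) (heckeBetaBar L N ℓ x) =
      twist (ζ ^ (a : ℕ)) (x : LaurentSeries L) := fun a x => by
    rw [hσs, hβ, coe_heckeAlphaBar]
  -- injectivity on `j(q^ℓ)`
  have hj : coeffEmb L jq ∈ FN L N := by
    have h1 := jqd_mem_full N (one_dvd N)
    rw [qExpand_one_apply] at h1
    exact coeffEmb_mem_laurentBaseChange L h1
  have hinj : Function.Injective σ := by
    intro a b hab
    have h1 := DFunLike.congr_fun hab (heckeBetaBar L N ℓ ⟨coeffEmb L jq, hj⟩)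
    have h2 := congrArg (fun s => HahnSeries.coeff s (-1)) h1
    have hnone : (qExpand L ℓ (qExpand L ℓ (coeffEmb L jq))).coeff (-1) = 0 := by
      apply qExpand_coeff_of_not_dvd
      intro hd
      have := Int.natAbs_dvd_natAbs.2 hd
      simp only [Int.natAbs_natCast, Int.reduceNeg, Int.natAbs_neg, Int.natAbs_one,
        Nat.dvd_one] at this
      omega
    have hsome : ∀ a : Fin ℓ, (twist (ζ ^ (a : ℕ)) (coeffEmb L jq)).coeff (-1) =
        (((ζ ^ (a : ℕ))⁻¹ : Lˣ) : L) := by
      intro a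
      rw [twist_coeff, coeff_jq_neg_one, mul_one, zpow_neg_one]
    cases a with
    | none =>
      cases b with
      | none => rfl
      | some b =>
        exfalso
        simp only [hvn, hvs, hnone, hsome] at h2
        exact Units.ne_zero _ h2.symm
    | some a =>
      cases b with
      | none =>
        exfalso
        simp only [hvn, hvs, hnone, hsome] at h2
        exact Units.ne_zero _ h2
      | some b =>
        simp only [hvs, hsome] at h2
        have h3 := Units.ext h2
        rw [inv_inj] at h3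
        have h4 := pow_injOn_Iio_orderOf (x := ζ) (by rw [hζ]; exact a.2) (by rw [hζ]; exact b.2) h3
        rw [Fin.ext h4]
  have hcard : Fintype.card (Option (Fin ℓ)) = Module.finrank (FN L N) (FN L (N * ℓ)) := by
    rw [Fintype.card_option, Fintype.card_fin]
    exact hdeg.symm
  have hmain := norm_eq_prod_of_injective i hcard σ hcomm hinj (heckeBetaBar L N ℓ h)
  rw [Fintype.prod_option] at hmain
  simp only [hvn, hvs] at hmain
  exact hmain

end Formal

end Fermat.Agent.ESh
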