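import Fermat.Agent.Frob.Basic
import Fermat.Prelude.Def_HeckeGalois_EichlerShimura

/-!
# Specialisation data from a reduction homomorphism
-/

set_option autoImplicit false
set_option linter.unusedSectionVars false
set_option linter.style.haveILetI false

open ModularCurve Fermat.Agent.Frob
open scoped Pointwise

namespace Fermat.Agent.ESh

variable {K L : Type*} [Field K] [Field L] [Algebra K L]
  (p : ℕ) {J : Type} [AddCommGroup J] [Module HeckeAlg J]
  [DistribMulAction (L ≃ₐ[K] L) J] [SMulCommClass (L ≃ₐ[K] L) HeckeAlg J]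

theorem conj_mem_inertia {A : ValuationSubring L} {g σ : L ≃ₐ[K] L}
    (hg : g ∈ A.decompositionSubgroup K) (hσ : σ ∈ A.inertiaSubgroupIn K) :
    g * σ * g⁻¹ ∈ A.inertiaSubgroupIn K := by
  have h := mem_inertiaSubgroupIn_smul_iff A σ g⁻¹
  have hA : g⁻¹ • A = A := inv_mem hg
  rw [hA, inv_inv] at h
  exact h.1 hσ

theorem conj_isFrobeniusAt {A : ValuationSubring L} {g σ : L ≃ₐ[K] L} {q : ℕ}
    (hg : g ∈ A.decompositionSubgroup K) (hσ : A.IsFrobeniusAt σ q) :
    A.IsFrobeniusAt (g * σ * g⁻¹) q := by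
  have h := isFrobeniusAt_smul_iff A σ g⁻¹ q
  have hA : g⁻¹ • A = A := inv_mem hg
  rw [hA, inv_inv] at h
  exact h.1 hσ

theorem conj_smul (g σ : L ≃ₐ[K] L) (x : J) : g • σ • x = (g * σ * g⁻¹) • g • x := by
  rw [← mul_smul, ← mul_smul, inv_mul_cancel_right]

/-- The kernel of the universal specialisation -/
def redKer (A : ValuationSubring L) {P : Type*} [AddCommGroup P] (red : J →+ P) :
    Submodule HeckeAlg J where
  carrier := {x | ∀ (T : HeckeAlg), ∀ g ∈ A.decompositionSubgroup K, red (T • g • x) = 0}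
  zero_mem' := fun T g _ => by rw [smul_zero, smul_zero, map_zero]
  add_mem' := fun {x y} hx hy T g hg => by
    rw [smul_add, smul_add, map_add, hx T g hg, hy T g hg, add_zero]
  smul_mem' := fun T' x hx T g hg => by
    rw [smul_comm g T' x, smul_smul]
    exact hx (T * T') g hg

theorem smul_mem_redKer {A : ValuationSubring L} {P : Type*} [AddCommGroup P] {red : J →+ P}
    {g : L ≃ₐ[K] L} (hg : g ∈ A.decompositionSubgroup K) {x : J}
    (hx : x ∈ redKer (K := K) A red) : g • x ∈ redKer (K := K) A red := by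
  intro T h hh
  rw [← mul_smul h g x]
  exact hx T (h * g) (mul_mem hh hg)

/-- **Specialisation data** from a reduction homomorphism `red` which is invariant under inertia,
kills the Eichler-Shimura relation and is injective on `p`-power torsion. -/
theorem exists_specialization (A : ValuationSubring L) {ℓ : ℕ} (hℓ : ℓ.Prime) {P : Type*}
    [AddCommGroup P] (red : J →+ P)
    (h_inertia : ∀ σ ∈ A.inertiaSubgroupIn K, ∀ x, red (σ • x) = red x)
    (h_frob : ∀ σ : L ≃ₐ[K] L, A.IsFrobeniusAt σ ℓ → ∀ x : J,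
      red (σ • σ • x - heckeGen ⟨ℓ, hℓ⟩ • (σ • x) + ℓ • x) = 0)
    (h_inj : ∀ x, (∃ n : ℕ, p ^ n • x = 0) → red x = 0 → x = 0)
    (h_ex : ∃ σ : L ≃ₐ[K] L, A.IsFrobeniusAt σ ℓ) :
    ∃ (J' : Type) (_ : AddCommGroup J') (_ : Module HeckeAlg J') (sp : J →+ J')
        (F : J' →+ J'),
        IsSpecialization (K := K) p J J' A ℓ sp F ∧ SpecialFibreRelation J' ℓ hℓ F := by
  obtain ⟨σ₀, hσ₀⟩ := h_ex
  have hσ₀D : σ₀ ∈ A.decompositionSubgroup K := ((isFrobeniusAt_iff A σ₀ ℓ).1 hσ₀).1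
  set Z := redKer (K := K) A red with hZ
  -- the Frobenius
  let F : (J ⧸ Z) →+ (J ⧸ Z) := QuotientAddGroup.map Z.toAddSubgroup Z.toAddSubgroup
    (DistribSMul.toAddMonoidHom J σ₀) (fun x hx => smul_mem_redKer hσ₀D hx)
  have hF : ∀ x : J, F (Z.mkQ x) = Z.mkQ (σ₀ • x) := fun x => rfl
  refine ⟨J ⧸ Z, inferInstance, inferInstance, Z.mkQ.toAddMonoidHom, F, ?_, ?_⟩
  · refine ⟨fun T x => map_smul Z.mkQ T x, ?_, ?_, ?_⟩
    · intro σ hσ x
      change Z.mkQ (σ • x) = Z.mkQ x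
      rw [← sub_eq_zero, ← map_sub, Submodule.mkQ_apply, Submodule.Quotient.mk_eq_zero]
      intro T g hg
      rw [smul_sub, smul_sub, map_sub, sub_eq_zero, conj_smul,
        ← smul_comm (g * σ * g⁻¹) T (g • x)]
      exact h_inertia _ (conj_mem_inertia hg hσ) _
    · intro σ hσ x
      change Z.mkQ (σ • x) = F (Z.mkQ x)
      rw [hF, ← sub_eq_zero, ← map_sub, Submodule.mkQ_apply, Submodule.Quotient.mk_eq_zero]
      intro T g hg
      have h1 : σ • x = (σ * σ₀⁻¹) • σ₀ • x := by rw [← mul_smul, inv_mul_cancel_right]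
      have h2 := conj_mem_inertia hg (IsFrobeniusAt.mul_inv_mem_inertia hσ hσ₀)
      rw [smul_sub, smul_sub, map_sub, sub_eq_zero, h1, conj_smul,
        ← smul_comm (g * (σ * σ₀⁻¹) * g⁻¹) T]
      exact h_inertia _ h2 _
    · intro x hx h0
      apply h_inj x hx
      have h1 : x ∈ Z := by
        have : Z.mkQ x = 0 := h0
        rwa [Submodule.mkQ_apply, Submodule.Quotient.mk_eq_zero] at this
      have h2 := h1 1 1 (one_mem _)
      rwa [one_smul, one_smul] at h2
  · intro y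
    obtain ⟨x, rfl⟩ := Z.mkQ_surjective y
    rw [hF, hF, ← map_smul, ← map_nsmul, ← map_sub, ← map_add, Submodule.mkQ_apply,
      Submodule.Quotient.mk_eq_zero]
    intro T g hg
    have h1 := h_frob _ (conj_isFrobeniusAt hg hσ₀) (T • g • x)
    have h2 : T • g • (σ₀ • σ₀ • x - heckeGen ⟨ℓ, hℓ⟩ • σ₀ • x + ℓ • x) =
        (g * σ₀ * g⁻¹) • (g * σ₀ * g⁻¹) • T • g • x -
          heckeGen ⟨ℓ, hℓ⟩ • (g * σ₀ * g⁻¹) • T • g • x + ℓ • T • g • x := by
      rw [smul_add, smul_sub, smul_add, smul_sub]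
      congr 1
      · congr 1
        · rw [conj_smul, conj_smul g σ₀ x, smul_comm (g * σ₀ * g⁻¹) T,
            smul_comm (g * σ₀ * g⁻¹) T]
        · rw [smul_comm g (heckeGen ⟨ℓ, hℓ⟩), conj_smul g σ₀ x, smul_comm (g * σ₀ * g⁻¹) T,
            smul_smul T, smul_smul (heckeGen ⟨ℓ, hℓ⟩), mul_comm]
      · rw [smul_comm g ℓ x, smul_comm T ℓ]
    rw [h2]
    exact h1

end Fermat.Agent.ESh
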