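import Fermat.Agent.ESh.Good
import Fermat.Agent.Red.Level
import Fermat.Prelude.Def_ModularCurve_HeckeModule

/-!
# Specialisation data for `J₀(N)` from a specialisation of divisors
-/

set_option autoImplicit false
set_option linter.unusedSectionVars false
set_option linter.style.haveILetI false

open AlgebraicCurve ModularCurve Fermat.Agent.JZ Fermat.Agent.FF IntermediateField

namespace Fermat.Agent.ESh

local notation "Qb" => AlgebraicClosure ℚ

/-- every prime `ℓ ∤ N` admits a specialisation of divisors, injective on torsion -/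
def HasDivSpec (N ℓ : ℕ) [NeZero N] : Prop :=
  ∀ A : ValuationSubring Qb, A.LiesOverPrime ℓ →
    ∃ (M : ℕ) (S : DivSpec A (IsLocalRing.residue A) N M), S.InjTors

theorem residue_eq_zero_iff' (A : ValuationSubring Qb) (a : A) :
    IsLocalRing.residue A a = 0 ↔ ¬ IsUnit a := by
  rw [IsLocalRing.residue_eq_zero_iff, IsLocalRing.mem_maximalIdeal]
  rfl

theorem pic0_isPrincipal_of_mk_eq_zero {K F : Type*} [Field K] [Field F] [Algebra K F]
    {D : Divisor.degZero (K := K) (F := F)} (h : Pic0.mk D = 0) :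
    (D : Divisor K F).IsPrincipal := by
  have h1 := (QuotientAddGroup.eq_zero_iff D).1 h
  rw [AddSubgroup.mem_addSubgroupOf] at h1
  exact h1

theorem pic0_mk_eq_zero {K F : Type*} [Field K] [Field F] [Algebra K F]
    {D : Divisor.degZero (K := K) (F := F)} (h : (D : Divisor K F).IsPrincipal) :
    Pic0.mk D = 0 := by
  refine (QuotientAddGroup.eq_zero_iff D).2 ?_
  rw [AddSubgroup.mem_addSubgroupOf]
  exact h

theorem DivSpec.pic_injective {A : ValuationSubring Qb} {k : Type*} [Field k] {π : A →+* k}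
    {N M : ℕ} [NeZero N] {S : DivSpec A π N M} (hS : S.InjTors) {m : ℕ} (hm : (m : k) ≠ 0)
    (x : JZero N) (hx : m • x = 0) (h : S.pic x = 0) : x = 0 := by
  obtain ⟨D, rfl⟩ := Pic0.mk_surjective x
  apply pic0_mk_eq_zero
  refine hS m hm D D.2 ?_ ?_
  · have h1 : m • Pic0.mk D = Pic0.mk (m • D) := rfl
    rw [h1] at hx
    exact pic0_isPrincipal_of_mk_eq_zero hx
  · rw [S.pic_mk] at h
    exact pic0_isPrincipal_of_mk_eq_zero h

theorem specializationExists_of (N p : ℕ) [NeZero N] (hcomm : HeckeOperatorsCommuteBar N)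
    (hS : ∀ ℓ : ℕ, ℓ.Prime → ¬ ℓ ∣ N * p → HasDivSpec N ℓ) :
    letI := ModularCurve.heckeModuleBar N
    ∀ (_ : SMulCommClass (AlgebraicClosure ℚ ≃ₐ[ℚ] AlgebraicClosure ℚ) ModularCurve.HeckeAlg
      (ModularCurve.JZero N)), ModularCurve.SpecializationExists (K := ℚ)
        (L := AlgebraicClosure ℚ) N p (ModularCurve.JZero N) := by
  letI := ModularCurve.heckeModuleBar N
  intro hsm ℓ hℓ hNp A hA
  haveI : Fact ℓ.Prime := ⟨hℓ⟩
  haveI : NeZero ℓ := ⟨hℓ.ne_zero⟩
  have hN : ¬ ℓ ∣ N := fun h => hNp (h.mul_right p)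
  have hp : ¬ ℓ ∣ p := fun h => hNp (h.mul_left N)
  obtain ⟨M, S, hSi⟩ := hS ℓ hℓ hNp A hA
  have hπ := residue_eq_zero_iff' A
  have hs : Function.Surjective (IsLocalRing.residue A) := IsLocalRing.residue_surjective
  haveI : CharP (IsLocalRing.ResidueField A) ℓ := Red.charP_of_liesOverPrime hA hπ
  haveI : IsAlgClosed (IsLocalRing.ResidueField A) := Red.isAlgClosed_of_surjective hs
  haveI : PerfectRing (IsLocalRing.ResidueField A) ℓ :=
    PerfectField.toPerfectRing ℓ
  letI : Algebra Qb ℂ :=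
    (IsAlgClosed.lift (R := ℚ) (S := AlgebraicClosure ℚ) (M := ℂ)).toRingHom.toAlgebra
  refine exists_specialization p A hℓ S.pic ?_ ?_ ?_ ?_
  · intro σ hσ x
    exact S.pic_inertia modularFieldInputsBar hπ σ hσ x
  · intro σ hσ x
    have h1 : heckeGen ⟨ℓ, hℓ⟩ • σ • x = heckeOperatorBar N ⟨ℓ, hℓ⟩ (σ • x) :=
      heckeModuleBar_heckeGen_smul hcomm ⟨ℓ, hℓ⟩ (σ • x)
    rw [h1]
    exact S.pic_frobenius modularFieldInputsBar (FF.normInputs Qb) hπ hN σ hσ x
  · rintro x ⟨n, hn⟩ h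
    refine S.pic_injective hSi (m := p ^ n) ?_ x hn h
    rw [Nat.cast_pow]
    refine pow_ne_zero _ ?_
    rw [Ne, CharP.cast_eq_zero_iff (IsLocalRing.ResidueField A) ℓ]
    exact hp
  · exact Frob.exists_isFrobeniusAt A hℓ hA

/-- the case of an auxiliary level -/
theorem exists_divSpec_of_level {N ℓ : ℕ} [NeZero N] [hℓ : Fact ℓ.Prime] {A : ValuationSubring Qb}
    (hA : A.LiesOverPrime ℓ) (hN : ¬ ℓ ∣ N) (h2 : ℓ = 2 → 3 ∣ N) (h3 : ℓ = 3 → 2 ∣ N) :
    ∃ S : DivSpec A (IsLocalRing.residue A) N N, S.InjTors := by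
  obtain ⟨x, xb, B, hc⟩ := Red.exists_goodCoord (N := N) hA (residue_eq_zero_iff' A)
    IsLocalRing.residue_surjective hN h2 h3
  exact exists_divSpec_of_goodCoord hc

theorem exists_divSpec_of_prime {N ℓ q : ℕ} [NeZero N] [hℓ : Fact ℓ.Prime] {A : ValuationSubring Qb}
    (hA : A.LiesOverPrime ℓ) (hN : ¬ ℓ ∣ N) (hq : q.Prime) (hqN : ¬ q ∣ N) (hqℓ : q ≠ ℓ)
    (h2 : ℓ = 2 → q = 3) (h3 : ℓ = 3 → q = 2)
    (hcop : ∀ m : ℕ, ¬ ℓ ∣ m → Nat.Coprime m (q + 1)) :
    ∃ S : DivSpec A (IsLocalRing.residue A) N (N * q), S.InjTors := by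
  haveI : NeZero (N * q) := ⟨mul_ne_zero (NeZero.ne N) hq.ne_zero⟩
  haveI : CharP (IsLocalRing.ResidueField A) ℓ :=
    Red.charP_of_liesOverPrime hA (residue_eq_zero_iff' A)
  refine exists_divSpec_pull hA (residue_eq_zero_iff' A) IsLocalRing.residue_surjective hN hq hqN
    (dvd_mul_right N q) (fun m hm => hcop m ?_) ?_
  · rwa [Ne, CharP.cast_eq_zero_iff (IsLocalRing.ResidueField A) ℓ] at hm
  · refine exists_divSpec_of_level hA ?_ ?_ ?_
    · intro h
      rcases hℓ.out.dvd_mul.1 h with h | h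
      · exact hN h
      · exact hqℓ ((Nat.prime_dvd_prime_iff_eq hℓ.out hq).1 h).symm
    · intro h
      rw [h2 h]
      exact dvd_mul_left 3 N
    · intro h
      rw [h3 h]
      exact dvd_mul_left 2 N

theorem hasDivSpec (N ℓ : ℕ) [NeZero N] (hℓ : ℓ.Prime) (hN : ¬ ℓ ∣ N) : HasDivSpec N ℓ := by
  haveI : Fact ℓ.Prime := ⟨hℓ⟩
  intro A hA
  by_cases hl2 : ℓ = 2
  · by_cases h3 : 3 ∣ N
    · exact ⟨N, exists_divSpec_of_level hA hN (fun _ => h3) (fun h => by omega)⟩
    · refine ⟨N * 3, exists_divSpec_of_prime hA hN Nat.prime_three h3 (by omega) (fun _ => rfl)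
        (fun h => by omega) (fun m hm => ?_)⟩
      subst hl2
      have : Nat.Coprime m 2 := ((Nat.Prime.coprime_iff_not_dvd Nat.prime_two).2 hm).symm
      exact Nat.Coprime.pow_right 2 this
  · by_cases hl3 : ℓ = 3
    · by_cases h2 : 2 ∣ N
      · exact ⟨N, exists_divSpec_of_level hA hN (fun h => by omega) (fun _ => h2)⟩
      · refine ⟨N * 2, exists_divSpec_of_prime hA hN Nat.prime_two h2 (by omega)
          (fun h => by omega) (fun _ => rfl) (fun m hm => ?_)⟩
        subst hl3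
        exact ((Nat.Prime.coprime_iff_not_dvd Nat.prime_three).2 hm).symm
    · exact ⟨N, exists_divSpec_of_level hA hN (fun h => absurd h hl2) (fun h => absurd h hl3)⟩

/-- **Existence of specialisation data for `J₀(N)`**. -/
theorem specializationExists (N p : ℕ) [NeZero N] (hcomm : HeckeOperatorsCommuteBar N) :
    letI := ModularCurve.heckeModuleBar N
    ∀ (_ : SMulCommClass (AlgebraicClosure ℚ ≃ₐ[ℚ] AlgebraicClosure ℚ) ModularCurve.HeckeAlg
      (ModularCurve.JZero N)), ModularCurve.SpecializationExists (K := ℚ)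
        (L := AlgebraicClosure ℚ) N p (ModularCurve.JZero N) :=
  specializationExists_of N p hcomm fun ℓ hℓ hNp =>
    hasDivSpec N ℓ hℓ fun h => hNp (h.mul_right p)

end Fermat.Agent.ESh
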