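import Fermat.Agent.ESh.PicSpec
import Fermat.Agent.ESh.Abstract
import Fermat.Agent.Red.XZero
import Fermat.Agent.Red.Genus
import Fermat.Agent.JZ.FieldInputs
import Fermat.Agent.S24Lib.NormInputs

/-!
# Specialisations of divisors on `X₀(N)` at primes of good reduction
-/

set_option autoImplicit false
set_option linter.unusedSectionVars false
set_option linter.style.haveILetI false

open AlgebraicCurve ModularCurve Fermat.Agent.JZ Fermat.Agent.ModFn Fermat.Agent.FF
  IntermediateField

namespace Fermat.Agent.ESh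

local notation "Qb" => AlgebraicClosure ℚ

variable {k : Type*} [Field k] {A : ValuationSubring Qb} {π : A →+* k} {ℓ : ℕ}
  [hℓ : Fact ℓ.Prime] {N M : ℕ} [NeZero N]

theorem full_mono (k : Type*) [Field k] [NeZero M] (h : N ∣ M) :
    modularFunctionFieldFullC k N ≤ modularFunctionFieldFullC k M := by
  rw [modularFunctionFieldFullC, IntermediateField.adjoin_le_iff]
  rintro _ ⟨d, hd, hdN, rfl⟩
  exact jqModCd_mem_full k M (hdN.trans h)

theorem coeffMap_mem_full_of_mem (hA : A.LiesOverPrime ℓ) (hπ : ∀ a : A, π a = 0 ↔ ¬ IsUnit a)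
    (hs : Function.Surjective π) (hN : ¬ ℓ ∣ N) (y : LaurentSeries A)
    (hy : coeffMap A.subtype y ∈ FN Qb N) : coeffMap π y ∈ modularFunctionFieldFullC k N := by
  rw [← Red.gaussRes_bar N hA hπ hs hN]
  exact ⟨_, hy, Red.gRed_iota π y⟩

theorem gen_of_gauss [NeZero M] (hA : A.LiesOverPrime ℓ) (hπ : ∀ a : A, π a = 0 ↔ ¬ IsUnit a)
    (hs : Function.Surjective π) (hN : ¬ ℓ ∣ N) (hNM : N ∣ M) :
    Divisor.principal (K := Qb) (F := FN Qb N) ≤
    AddSubgroup.closure {D | ∃ (y : LaurentSeries A) (hy : coeffMap A.subtype y ∈ FN Qb N),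
      coeffMap π y ∈ modularFunctionFieldFullC k M ∧ coeffMap π y ≠ 0 ∧
        ∀ P, D P = P.ord (⟨coeffMap A.subtype y, hy⟩ : FN Qb N)} := by
  rintro D ⟨f, hf0, hD⟩
  haveI := modularFieldInputsBar.fnField N
  haveI : HasPrincipalDivisors Qb (FN Qb N) := FF.hasPrincipalDivisors Qb (FN Qb N)
  obtain ⟨c, a, b, hc, ha, hb, haE, hbE, h⟩ :=
    (Red.gaussField_laurentBaseChange π hℓ.out hA N).exists_frac (f : LaurentSeries Qb) f.2
      (fun h => hf0 (Subtype.ext h))
  have ha0 : (⟨coeffMap A.subtype a, haE⟩ : FN Qb N) ≠ 0 := by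
    intro h0
    have h1 : coeffMap A.subtype a = 0 := congrArg Subtype.val h0
    have h2 : a = 0 := coeffMap_subtype_injective A (by rw [h1, map_zero])
    exact ha (by rw [h2, map_zero])
  have hb0 : (⟨coeffMap A.subtype b, hbE⟩ : FN Qb N) ≠ 0 := by
    intro h0
    have h1 : coeffMap A.subtype b = 0 := congrArg Subtype.val h0
    have h2 : b = 0 := coeffMap_subtype_injective A (by rw [h1, map_zero])
    exact hb (by rw [h2, map_zero])
  obtain ⟨Da, hDa, -⟩ := HasPrincipalDivisors.exists_divisor (K := Qb) _ ha0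
  obtain ⟨Db, hDb, -⟩ := HasPrincipalDivisors.exists_divisor (K := Qb) _ hb0
  have hrel : f * (⟨coeffMap A.subtype b, hbE⟩ : FN Qb N) =
      algebraMap Qb (FN Qb N) c * (⟨coeffMap A.subtype a, haE⟩ : FN Qb N) := Subtype.ext h
  have hDeq : D = Da - Db := by
    ext P
    have h1 := congrArg (fun t => P.ord t) hrel
    rw [P.ord_mul hf0 hb0, P.ord_mul (by simpa using hc) ha0, FF.ord_algebraMap, zero_add] at h1
    rw [Finsupp.sub_apply, hD, hDa, hDb]
    omega
  rw [hDeq]
  refine sub_mem (AddSubgroup.subset_closure ?_) (AddSubgroup.subset_closure ?_)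
  · exact ⟨a, haE, full_mono k hNM (coeffMap_mem_full_of_mem hA hπ hs hN a haE), ha, hDa⟩
  · exact ⟨b, hbE, full_mono k hNM (coeffMap_mem_full_of_mem hA hπ hs hN b hbE), hb, hDb⟩

variable {hA : A.LiesOverPrime ℓ} {hπ : ∀ a : A, π a = 0 ↔ ¬ IsUnit a}
    {hs : Function.Surjective π} {hN : ¬ ℓ ∣ N}

theorem degree_mapDomain {K k F Fk : Type*} [Field K] [Field k] {A : ValuationSubring K}
    {π : A →+* k} [Field F] [Algebra K F] [Field Fk] [Algebra k Fk] {R : Red.ConstRed A π F Fk}
    (S : Red.Spec R) (D : Divisor K F) :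
    Divisor.degree (Finsupp.mapDomain S.r D) = Divisor.degree D := by
  induction D using Finsupp.induction with
  | zero => simp
  | single_add P n D _ _ ih =>
    rw [Finsupp.mapDomain_add, map_add, map_add, ih, Finsupp.mapDomain_single,
      Divisor.degree_single, Divisor.degree_single, S.deg_eq]

/-- The specialisation of divisors attached to a specialisation of places. -/
noncomputable def divSpecOf (S : Red.Spec (Red.redX N hA hπ hs hN)) : DivSpec A π N N where
  toHom := Finsupp.mapDomain.addMonoidHom S.r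
  C := 1
  bounded P Y := by
    classical
    rw [Finsupp.mapDomain.addMonoidHom_apply, Finsupp.mapDomain_single, Finsupp.single_apply]
    split_ifs <;> norm_num
  degree_eq_zero D hD := by
    rw [Finsupp.mapDomain.addMonoidHom_apply, degree_mapDomain S, hD]
  div y hy hyk hne D hD Q :=
    S.ord_eq _ _ (Red.isRed_coeffMap y hy hyk) (fun h => hne (congrArg Subtype.val h)) D hD Q
  gen := gen_of_gauss hA hπ hs hN dvd_rfl

/-- injectivity on torsion prime to the residue characteristic -/
def DivSpec.InjTors (S : DivSpec A π N M) : Prop :=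
  ∀ m : ℕ, (m : k) ≠ 0 → ∀ D : Divisor Qb (FN Qb N), Divisor.degree D = 0 →
    (m • D).IsPrincipal → (S.toHom D).IsPrincipal → D.IsPrincipal

/-- Pullback of a specialisation to a lower level. -/
noncomputable def DivSpec.pull [NeZero M] {q : ℕ} [NeZero q] (S : DivSpec A π (N * q) M)
    (hA : A.LiesOverPrime ℓ) (hπ : ∀ a : A, π a = 0 ↔ ¬ IsUnit a)
    (hs : Function.Surjective π) (hN : ¬ ℓ ∣ N) (hNM : N ∣ M)
    [HasPrincipalDivisors Qb (FN Qb (N * q))]
    (hα : (heckeAlphaBar Qb N q).toRingHom.IsIntegral)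
    (hFI : FundamentalIdentityAlong Qb (heckeAlphaBar Qb N q) hα) : DivSpec A π N M where
  toHom := S.toHom.comp (Divisor.pullbackAlong (heckeAlphaBar Qb N q) hα)
  C := S.C * finrankAlong Qb (heckeAlphaBar Qb N q)
  bounded P Y := by
    have h0 : 0 ≤ Divisor.pullbackAlong (heckeAlphaBar Qb N q) hα (Finsupp.single P 1) := by
      refine pullbackAlong_nonneg _ hα ?_
      intro v
      classical
      rw [Finsupp.coe_zero, Pi.zero_apply, Finsupp.single_apply]
      split_ifs <;> norm_num
    haveI := modularFieldInputsBar.fnField N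
    haveI := modularFieldInputsBar.fnField (N * q)
    have h1 := abs_le_of_nonneg ((Finsupp.applyAddHom Y).comp S.toHom) S.C
      (fun P => S.bounded P Y) _ h0
    rw [Divisor.degree_pullbackAlong _ _ hFI, RR.degree_single', mul_one] at h1
    exact h1
  degree_eq_zero D hD := by
    apply S.degree_eq_zero
    rw [Divisor.degree_pullbackAlong _ _ hFI, hD, mul_zero]
  div y hy hyk hne D hD Q := by
    have hy' : coeffMap A.subtype y ∈ FN Qb (N * q) := by
      have := (heckeAlphaBar Qb N q ⟨_, hy⟩).2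
      rwa [coe_heckeAlphaBar] at this
    refine S.div y hy' hyk hne _ (fun P => ?_) Q
    rw [Divisor.pullbackAlong_apply, hD, ← Place.ord_restrictAlong _ hα]
    congr 1
  gen := gen_of_gauss hA hπ hs hN hNM

theorem pushforward_pullback_eq {K F F' : Type*} [Field K] [Field F] [Field F'] [Algebra K F]
    [Algebra K F'] [IsAlgClosed K] [IsFnField K F] [HasPrincipalDivisors K F'] (φ : F →ₐ[K] F')
    (hφ : φ.toRingHom.IsIntegral) (hFI : FundamentalIdentityAlong K φ hφ)
    (hfin : FiniteAlong K φ) (hN : NormFormulaAlong K φ hfin) (D : Divisor K F)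
    (hD : Divisor.degree D = 0) :
    Divisor.pushforwardAlong φ hφ (Divisor.pullbackAlong φ hφ D) = finrankAlong K φ • D := by
  rw [← sub_eq_zero]
  let T : Divisor K F →+ Divisor K F := Divisor.correspondence φ φ hφ hφ
  let δ : Divisor K F →+ Divisor K F := T - finrankAlong K φ • AddMonoidHom.id _
  have hδ : ∀ D, δ D = Divisor.pushforwardAlong φ hφ (Divisor.pullbackAlong φ hφ D) -
      finrankAlong K φ • D := fun D => rfl
  rw [← hδ]
  refine eq_zero_of_bounded' δ (1 * finrankAlong K φ + finrankAlong K φ) ?_ ?_ D hD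
  · intro P Y
    have hsingle : ∀ P Y : Place K F, |(Finsupp.single P (1 : ℤ)) Y| ≤ 1 := by
      classical
      intro P Y
      rw [Finsupp.single_apply]
      split_ifs <;> norm_num
    rw [hδ, Finsupp.sub_apply, Finsupp.smul_apply]
    have hTP : 0 ≤ Divisor.pushforwardAlong φ hφ (Divisor.pullbackAlong φ hφ
        (Finsupp.single P 1)) := by
      refine pushforwardAlong_nonneg _ hφ (pullbackAlong_nonneg _ hφ ?_)
      intro v
      classical
      rw [Finsupp.coe_zero, Pi.zero_apply, Finsupp.single_apply]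
      split_ifs <;> norm_num
    have h1 := abs_le_of_nonneg (Finsupp.applyAddHom (M := ℤ) Y) 1
      (fun P => hsingle P Y) _ hTP
    rw [Divisor.degree_pushforwardAlong, Divisor.degree_pullbackAlong _ _ hFI,
      RR.degree_single', mul_one] at h1
    refine (abs_sub _ _).trans (add_le_add h1 ?_)
    rw [nsmul_eq_mul, abs_mul, Nat.abs_cast]
    exact mul_le_of_le_one_right (by positivity) (hsingle P Y)
  · rintro D ⟨f, hf, hD⟩
    rw [hδ, sub_eq_zero]
    ext P
    have h1 : ∀ w, Divisor.pullbackAlong φ hφ D w = w.ord (φ f) := by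
      intro w
      rw [Divisor.pullbackAlong_apply, hD, Place.ord_restrictAlong _ hφ]
    rw [pushforwardAlong_apply_of_ord φ hφ hfin hN (f := φ f)
      (fun h0 => hf ((map_eq_zero_iff φ φ.toRingHom.injective).1 h0)) h1 P, Finsupp.smul_apply, hD]
    have h2 : normAlong φ (φ f) = f ^ finrankAlong K φ := by
      letI := algebraAlong φ
      exact Algebra.norm_algebraMap f
    rw [h2, FF.ord_pow, nsmul_eq_mul]

theorem isPrincipal_of_coprime {K F : Type*} [Field K] [Field F] [Algebra K F] {D : Divisor K F}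
    {m n : ℕ} (h : Nat.Coprime m n) (hm : (m • D).IsPrincipal) (hn : (n • D).IsPrincipal) :
    D.IsPrincipal := by
  have h1 : (1 : ℤ) = m * m.gcdA n + n * m.gcdB n := by
    rw [← Nat.gcd_eq_gcd_ab, h.gcd_eq_one, Nat.cast_one]
  have h2 : D = m.gcdA n • (m • D) + m.gcdB n • (n • D) := by
    rw [← natCast_zsmul D m, ← natCast_zsmul D n, smul_smul, smul_smul, ← add_smul]
    rw [mul_comm (m.gcdA n), mul_comm (m.gcdB n), ← h1, one_smul]
  rw [h2]
  exact (Divisor.principal (K := K) (F := F)).add_mem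
    ((Divisor.principal (K := K) (F := F)).zsmul_mem hm _)
    ((Divisor.principal (K := K) (F := F)).zsmul_mem hn _)

theorem DivSpec.pull_injTors [NeZero M] {q : ℕ} [NeZero q] {S : DivSpec A π (N * q) M}
    (hS : S.InjTors)
    (hA : A.LiesOverPrime ℓ) (hπ : ∀ a : A, π a = 0 ↔ ¬ IsUnit a)
    (hs : Function.Surjective π) (hN : ¬ ℓ ∣ N) (hNM : N ∣ M)
    [HasPrincipalDivisors Qb (FN Qb (N * q))]
    (hα : (heckeAlphaBar Qb N q).toRingHom.IsIntegral)
    (hFI : FundamentalIdentityAlong Qb (heckeAlphaBar Qb N q) hα)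
    (hfin : FiniteAlong Qb (heckeAlphaBar Qb N q))
    (hNF : NormFormulaAlong Qb (heckeAlphaBar Qb N q) hfin)
    (hcop : ∀ m : ℕ, (m : k) ≠ 0 → Nat.Coprime m (finrankAlong Qb (heckeAlphaBar Qb N q))) :
    (S.pull hA hπ hs hN hNM hα hFI).InjTors := by
  intro m hm D hD hmD hrD
  haveI := modularFieldInputsBar.fnField N
  have h1 : (Divisor.pullbackAlong (heckeAlphaBar Qb N q) hα D).IsPrincipal := by
    refine hS m hm _ ?_ ?_ hrD
    · rw [Divisor.degree_pullbackAlong _ _ hFI, hD, mul_zero]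
    · rw [← map_nsmul]
      exact Divisor.isPrincipal_pullbackAlong _ hα hmD
  have h2 := Divisor.isPrincipal_pushforwardAlong _ hα hfin hNF h1
  rw [pushforward_pullback_eq _ hα hFI hfin hNF D hD] at h2
  exact isPrincipal_of_coprime (hcop m hm) hmD h2

theorem exists_divSpec_of_goodCoord {x : FN Qb N} {xb : modularFunctionFieldFullC k N}
    {B : Finset A} (hc : GoodRed.GoodCoord (Red.redX N hA hπ hs hN) x xb B) :
    ∃ S : DivSpec A π N N, S.InjTors := by
  haveI := modularFieldInputsBar.fnField N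
  haveI : IsAlgClosed k := Red.isAlgClosed_of_surjective hs
  haveI : IsFnField Qb (modularFunctionFieldBar N) := modularFieldInputsBar.fnField N
  haveI : IsFnField k (modularFunctionFieldFullC k N) := Red.isFnField_of_goodCoord' hc
  refine ⟨divSpecOf (Red.specGood hc hs), ?_⟩
  intro m hm D hD hmD hrD
  exact Red.isPrincipal_of_torsion hc hs (Red.specGood hc hs) m hm D hD hmD hrD

theorem exists_divSpec_pull (hA : A.LiesOverPrime ℓ) (hπ : ∀ a : A, π a = 0 ↔ ¬ IsUnit a)
    (hs : Function.Surjective π) (hN : ¬ ℓ ∣ N) {q : ℕ} (hq : q.Prime) (hqN : ¬ q ∣ N) [NeZero M]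
    (hNM : N ∣ M) (hcop : ∀ m : ℕ, (m : k) ≠ 0 → Nat.Coprime m (q + 1))
    (h : haveI : NeZero (N * q) := ⟨mul_ne_zero (NeZero.ne N) hq.ne_zero⟩
      ∃ S : DivSpec A π (N * q) M, S.InjTors) :
    ∃ S : DivSpec A π N M, S.InjTors := by
  haveI : NeZero q := ⟨hq.ne_zero⟩
  haveI : Fact q.Prime := ⟨hq⟩
  obtain ⟨S, hS⟩ := h
  haveI h1 := modularFieldInputsBar.fnField N
  haveI h2 := modularFieldInputsBar.fnField (N * q)
  haveI : HasPrincipalDivisors Qb (FN Qb (N * q)) := FF.hasPrincipalDivisors Qb (FN Qb (N * q))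
  have hNF := FF.normInputs Qb
  have hα : (heckeAlphaBar Qb N q).toRingHom.IsIntegral := isIntegralAlong _
  have hFI := hNF.fund _ _ (heckeAlphaBar Qb N q) hα
  have hfin : FiniteAlong Qb (heckeAlphaBar Qb N q) := finiteAlong _
  refine ⟨S.pull hA hπ hs hN hNM hα hFI, DivSpec.pull_injTors hS hA hπ hs hN hNM hα hFI hfin
    (hNF.norm _ _ _ hfin) ?_⟩
  rw [finrankAlong_alpha modularFieldInputsBar hqN]
  exact hcop

end Fermat.Agent.ESh
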