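import Fermat.Agent.ESh.SpecFun
import Fermat.Agent.ESh.Good
import Fermat.Agent.Red.ChartN

/-!
# Hecke operators and reduction, at primes different from the residue characteristic
-/

set_option autoImplicit false
set_option linter.unusedSectionVars false
set_option linter.style.haveILetI false

open AlgebraicCurve ModularCurve Fermat.Agent.JZ Fermat.Agent.ModFn Fermat.Agent.FF
  IntermediateField

namespace Fermat.Agent.ESh

local notation "Qb" => AlgebraicClosure ℚ

section Defs

variable (k : Type*) [Field k] (N q : ℕ) [NeZero N] [NeZero q]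

/-- the inclusion `F_k(N) → F_k(Nq)` -/
noncomputable def alphaK : modularFunctionFieldFullC k N →ₐ[k] modularFunctionFieldFullC k (N * q) :=
  IntermediateField.inclusion (full_degeneracyC_le k (dvd_mul_right N q))

theorem coe_alphaK (x : modularFunctionFieldFullC k N) :
    (alphaK k N q x : LaurentSeries k) = x := IntermediateField.coe_inclusion _ x

/-- the map `f(τ) ↦ f(qτ)`, `F_k(N) → F_k(Nq)` -/
noncomputable def betaK : modularFunctionFieldFullC k N →ₐ[k] modularFunctionFieldFullC k (N * q) :=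
  ((qExpandAlgHomC k q).comp (modularFunctionFieldFullC k N).val).codRestrict
    (modularFunctionFieldFullC k (N * q)).toSubalgebra
    (fun x => full_degeneracyC_map_le k (N := N) q ⟨x, x.2, rfl⟩)

theorem coe_betaK (x : modularFunctionFieldFullC k N) :
    (betaK k N q x : LaurentSeries k) = qExpand k q (x : LaurentSeries k) := rfl

end Defs

theorem gRed_qExpand {L k : Type*} [Field L] [Field k] {A : ValuationSubring L} {π : A →+* k}
    {f : LaurentSeries L} {z : LaurentSeries k} (h : Red.GRed π f z) (q : ℕ) [NeZero q] :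
    Red.GRed π (qExpand L q f) (qExpand k q z) := by
  obtain ⟨a, b, hb, h1, h2⟩ := h
  refine ⟨qExpand A q a, qExpand A q b, ?_, ?_, ?_⟩
  · rw [Red.rhoA, ModFn.coeffMap_qExpand]
    intro h0
    exact hb (qExpand_injective q (h0.trans (map_zero _).symm))
  · rw [Red.iotaA, ModFn.coeffMap_qExpand, ModFn.coeffMap_qExpand, ← map_mul]
    exact congrArg _ h1
  · rw [Red.rhoA, ModFn.coeffMap_qExpand, ModFn.coeffMap_qExpand, ← map_mul]
    exact congrArg _ h2

section Hecke

variable {k : Type*} [Field k] {A : ValuationSubring Qb} {π : A →+* k} {ℓ : ℕ}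
  [hℓ : Fact ℓ.Prime] {N q : ℕ} [NeZero N] [NeZero q]
  (hA : A.LiesOverPrime ℓ) (hπ : ∀ a : A, π a = 0 ↔ ¬ IsUnit a) (hs : Function.Surjective π)
  (hN : ¬ ℓ ∣ N) (hNq : ¬ ℓ ∣ N * q)

theorem isRed_alpha {f : FN Qb N} {z : modularFunctionFieldFullC k N}
    (h : (Red.redX N hA hπ hs hN).IsRed f z) :
    (Red.redX (N * q) hA hπ hs hNq).IsRed (heckeAlphaBar Qb N q f) (alphaK k N q z) := by
  have h' := Red.isRed_redX.1 h
  rw [Red.isRed_redX, coe_heckeAlphaBar, coe_alphaK]
  exact h'

theorem isRed_beta {f : FN Qb N} {z : modularFunctionFieldFullC k N}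
    (h : (Red.redX N hA hπ hs hN).IsRed f z) :
    (Red.redX (N * q) hA hπ hs hNq).IsRed (heckeBetaBar Qb N q f) (betaK k N q z) := by
  have h' := Red.isRed_redX.1 h
  rw [Red.isRed_redX, coe_heckeBetaBar, coe_betaK]
  exact gRed_qExpand h' q

include hA hπ hs hN hNq

theorem isRed_norm_alpha {f : FN Qb (N * q)} {z : modularFunctionFieldFullC k (N * q)}
    (h : (Red.redX (N * q) hA hπ hs hNq).IsRed f z) :
    (Red.redX N hA hπ hs hN).IsRed (normAlong (heckeAlphaBar Qb N q) f)
      (normAlong (alphaK k N q) z) := by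
  haveI hch : CharP k ℓ := Red.charP_of_liesOverPrime hA hπ
  haveI := modularFieldInputsBar.fnField N
  haveI := modularFieldInputsBar.fnField (N * q)
  haveI : IsAlgClosed k := Red.isAlgClosed_of_surjective hs
  haveI := Red.isFnField_fullC (k := k) N ℓ hN
  haveI := Red.isFnField_fullC (k := k) (N * q) ℓ hNq
  have hdeg : finrankAlong Qb (heckeAlphaBar Qb N q) = finrankAlong k (alphaK k N q) :=
    Red.finrankAlong_inclusion_eq (k := k) (dvd_mul_right N q) hN hNq _ _
  have hfin : FiniteAlong Qb (heckeAlphaBar Qb N q) := finiteAlong _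
  have hfink : FiniteAlong k (alphaK k N q) := finiteAlong _
  letI := algebraAlong (heckeAlphaBar Qb N q)
  haveI := isScalarTower_along (heckeAlphaBar Qb N q)
  letI := algebraAlong (alphaK k N q)
  haveI := isScalarTower_along (alphaK k N q)
  haveI : FiniteDimensional (FN Qb N) (FN Qb (N * q)) := hfin
  haveI : FiniteDimensional (modularFunctionFieldFullC k N)
    (modularFunctionFieldFullC k (N * q)) := hfink
  exact Red.Compat.isRed_norm (R := Red.redX N hA hπ hs hN) (R' := Red.redX (N * q) hA hπ hs hNq)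
    (fun f z hf => isRed_alpha hA hπ hs hN hNq hf) hdeg h

theorem normFormula_alphaK (hfink : FiniteAlong k (alphaK k N q)) :
    NormFormulaAlong k (alphaK k N q) hfink := by
  haveI hch : CharP k ℓ := Red.charP_of_liesOverPrime hA hπ
  haveI : IsAlgClosed k := Red.isAlgClosed_of_surjective hs
  haveI := Red.isFnField_fullC (k := k) N ℓ hN
  haveI := Red.isFnField_fullC (k := k) (N * q) ℓ hNq
  refine FF.normFormulaAlong _ hfink ?_
  letI := algebraAlong (alphaK k N q)
  haveI := isScalarTower_along (alphaK k N q)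
  exact Red.isSeparable_along (alphaK k N q) (RedQ.xj k N)
    (RedQ.isSeparable_charP (N * q) k ℓ hNq)

/-- **`T_q` commutes with reduction**, on divisors of degree zero (`q ≠ ℓ`). -/
theorem mapDomain_hecke (S : Red.Spec (Red.redX N hA hπ hs hN))
    (S' : Red.Spec (Red.redX (N * q) hA hπ hs hNq))
    [HasPrincipalDivisors Qb (FN Qb (N * q))]
    [HasPrincipalDivisors k (modularFunctionFieldFullC k (N * q))]
    (hα : (heckeAlphaBar Qb N q).toRingHom.IsIntegral)
    (hβ : (heckeBetaBar Qb N q).toRingHom.IsIntegral)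
    (hαk : (alphaK k N q).toRingHom.IsIntegral) (hβk : (betaK k N q).toRingHom.IsIntegral)
    (D : Divisor Qb (FN Qb N)) (hD : Divisor.degree D = 0) :
    Finsupp.mapDomain S.r
      (Divisor.correspondence (heckeBetaBar Qb N q) (heckeAlphaBar Qb N q) hβ hα D) =
      Divisor.correspondence (betaK k N q) (alphaK k N q) hβk hαk (Finsupp.mapDomain S.r D) := by
  haveI hch : CharP k ℓ := Red.charP_of_liesOverPrime hA hπ
  haveI := modularFieldInputsBar.fnField N
  haveI := modularFieldInputsBar.fnField (N * q)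
  haveI : IsAlgClosed k := Red.isAlgClosed_of_surjective hs
  haveI := Red.isFnField_fullC (k := k) N ℓ hN
  haveI := Red.isFnField_fullC (k := k) (N * q) ℓ hNq
  have hNF := FF.normInputs Qb
  have hFI := hNF.fund _ _ (heckeBetaBar Qb N q) hβ
  have hfin : FiniteAlong Qb (heckeAlphaBar Qb N q) := finiteAlong _
  have hfink : FiniteAlong k (alphaK k N q) := finiteAlong _
  rw [Divisor.correspondence_apply, Divisor.correspondence_apply]
  rw [spec_pushforward S S' (heckeAlphaBar Qb N q) (alphaK k N q) hα hαk hfin hfink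
    (hNF.norm _ _ _ hfin) (normFormula_alphaK hA hπ hs hN hNq hfink)
    (fun f z hf => isRed_norm_alpha hA hπ hs hN hNq hf) _ ?_]
  · congr 1
    exact spec_pullback S S' (heckeBetaBar Qb N q) (betaK k N q) hβ hβk hFI
      (fun f z hf => isRed_beta hA hπ hs hN hNq hf) D hD
  · rw [Divisor.degree_pullbackAlong _ _ hFI, hD, mul_zero]

/-- **The Hecke operators preserve the kernel of reduction** (`q ≠ ℓ`). -/
theorem pic_hecke_eq_zero (S : Red.Spec (Red.redX N hA hπ hs hN))
    (S' : Red.Spec (Red.redX (N * q) hA hπ hs hNq)) (x : Pic0 Qb (FN Qb N))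
    (hx : (divSpecOf S).pic x = 0) : (divSpecOf S).pic (heckeOperatorAlong Qb N q x) = 0 := by
  haveI hch : CharP k ℓ := Red.charP_of_liesOverPrime hA hπ
  haveI : IsAlgClosed k := Red.isAlgClosed_of_surjective hs
  haveI := Red.isFnField_fullC (k := k) N ℓ hN
  haveI := Red.isFnField_fullC (k := k) (N * q) ℓ hNq
  haveI : HasPrincipalDivisors k (modularFunctionFieldFullC k (N * q)) :=
    RR.hasPrincipalDivisors k _
  obtain ⟨hα, hβ, hP, hfin, hFI, hNm⟩ :=
    heckeInputsAlong modularFieldInputsBar (FF.normInputs Qb) N q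
  have hfink : FiniteAlong k (alphaK k N q) := finiteAlong _
  have hαk : (alphaK k N q).toRingHom.IsIntegral := isIntegralAlong _
  have hβk : (betaK k N q).toRingHom.IsIntegral := isIntegralAlong _
  obtain ⟨D, rfl⟩ := Pic0.mk_surjective x
  have h1 : heckeOperatorAlong Qb N q (Pic0.mk D) = Pic0.mk (Pic0.degZeroCorrespondence
      (heckeBetaBar Qb N q) (heckeAlphaBar Qb N q) hβ hα hFI D) := by
    rw [heckeOperatorAlong_eq hα hβ hFI hfin hNm]
    exact Pic0.correspondence_mk _ _ hβ hα hFI hfin hNm D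
  rw [(divSpecOf S).pic_mk] at hx
  have h2 := (QuotientAddGroup.eq_zero_iff _).1 hx
  rw [AddSubgroup.mem_addSubgroupOf] at h2
  rw [h1, (divSpecOf S).pic_mk]
  refine (QuotientAddGroup.eq_zero_iff _).2 ?_
  rw [AddSubgroup.mem_addSubgroupOf]
  have h3 := mapDomain_hecke hA hπ hs hN hNq S S' hα hβ hαk hβk D D.2
  have h4 := Divisor.correspondence_mem_principal (betaK k N q) (alphaK k N q) hβk hαk hfink
    (normFormula_alphaK hA hπ hs hN hNq hfink) h2
  have h5 : ((divSpecOf S).degZeroHom D : Divisor k (modularFunctionFieldFullC k N)) =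
      Finsupp.mapDomain S.r (D : Divisor Qb (FN Qb N)) := rfl
  rw [h5, ← h3] at h4
  exact h4

/-- version for the canonical specialisation `Red.specX` and all primes `q ∤ N`, `q ≠ ℓ`. -/
theorem pic_heckeOperatorAlong_eq_zero [IsAlgClosed k]
    [IsFnField k (modularFunctionFieldFullC k N)] [IsFnField Qb (modularFunctionFieldBar N)]
    (hq : ¬ ℓ ∣ q) (x : Pic0 Qb (FN Qb N))
    (hx : (divSpecOf (Red.specX hA hπ hs hN)).pic x = 0) :
    (divSpecOf (Red.specX hA hπ hs hN)).pic (heckeOperatorAlong Qb N q x) = 0 := by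
  haveI hch : CharP k ℓ := Red.charP_of_liesOverPrime hA hπ
  have hNq : ¬ ℓ ∣ N * q := fun h => (hℓ.out.dvd_mul.1 h).elim hN hq
  haveI := Red.isFnField_fullC (k := k) (N * q) ℓ hNq
  haveI : IsFnField Qb (modularFunctionFieldBar (N * q)) := modularFieldInputsBar.fnField (N * q)
  exact pic_hecke_eq_zero hA hπ hs hN hNq (Red.specX hA hπ hs hN) (Red.specX hA hπ hs hNq) x hx

end Hecke

end Fermat.Agent.ESh
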