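import Fermat.Agent.ESh.NormExp
import Fermat.Agent.ModFn.Contract
import Fermat.Agent.ModFn.ExpAlg
import Mathlib.RingTheory.PowerSeries.Expand

/-!
# Reduction modulo `ℓ` of the norm of `h(q^ℓ)`
-/

set_option autoImplicit false
set_option linter.unusedSectionVars false
set_option linter.style.haveILetI false

open AlgebraicCurve ModularCurve Fermat.Agent.JZ Fermat.Agent.ModFn IntermediateField

namespace Fermat.Agent.ESh

section Frob

variable {k : Type*} [Field k] (ℓ : ℕ) [hℓ : Fact ℓ.Prime] [CharP k ℓ]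

theorem qExpand_ofPowerSeries {R : Type*} [CommRing R] (m : ℕ) [NeZero m] (f : PowerSeries R) :
    qExpand R m (HahnSeries.ofPowerSeries ℤ R f) =
      HahnSeries.ofPowerSeries ℤ R (PowerSeries.expand m (NeZero.ne m) f) := by
  ext n
  by_cases hn : (m : ℤ) ∣ n
  · obtain ⟨e, rfl⟩ := hn
    rw [qExpand_coeff_mul]
    rcases le_or_gt 0 e with he | he
    · lift e to ℕ using he
      have h1 : ((m : ℤ) * (e : ℤ)) = ((m * e : ℕ) : ℤ) := by push_cast; ring
      rw [h1, HahnSeries.ofPowerSeries_apply_coeff, HahnSeries.ofPowerSeries_apply_coeff,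
        PowerSeries.coeff_expand_mul]
    · rw [ofPowerSeries_coeff_of_neg _ he, ofPowerSeries_coeff_of_neg]
      exact mul_neg_of_pos_of_neg (by exact_mod_cast Nat.pos_of_neZero m) he
  · rw [qExpand_coeff_of_not_dvd m _ hn]
    rcases le_or_gt 0 n with h0 | h0
    · lift n to ℕ using h0
      rw [HahnSeries.ofPowerSeries_apply_coeff, PowerSeries.coeff_expand_of_not_dvd]
      exact_mod_cast hn
    · rw [ofPowerSeries_coeff_of_neg _ h0]

include hℓ in
/-- Frobenius on Laurent series -/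
theorem pow_eq_qExpand [NeZero ℓ] (f : LaurentSeries k) :
    f ^ ℓ = qExpand k ℓ (coeffMap (frobenius k ℓ) f) := by
  conv_lhs => rw [← f.single_order_mul_powerSeriesPart]
  conv_rhs => rw [← f.single_order_mul_powerSeriesPart]
  rw [mul_pow, HahnSeries.single_pow, one_pow, ← map_pow, map_mul, map_mul, coeffMap_single,
    map_one (frobenius k ℓ), qExpand_single, coeffMap_ofPowerSeries, qExpand_ofPowerSeries, nsmul_eq_mul]
  congr 2
  have h1 : PowerSeries.map (frobenius k ℓ)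
      (PowerSeries.expand ℓ (NeZero.ne ℓ) f.powerSeriesPart) = f.powerSeriesPart ^ ℓ :=
    MvPowerSeries.map_frobenius_expand (σ := Unit) (R := k) ℓ (NeZero.ne ℓ)
      (f := f.powerSeriesPart)
  rw [← h1, PowerSeries.map_expand]

end Frob

section Main

variable {L : Type} [Field L] [Algebra ℚ L] [IsAlgClosed L] (A : ValuationSubring L)
  {k : Type*} [Field k] (π : A →+* k) {N ℓ : ℕ} [NeZero N] [NeZero ℓ]

theorem coeffMap_subtype_injective : Function.Injective (coeffMap A.subtype) :=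
  coeffMap_injective Subtype.val_injective

/-- **Reduction of the norm**: if `h` has integral `q`-expansion `y`, so has `N(h(q^ℓ))`, and its
reduction is `ȳ(q^ℓ) Frob(ȳ)`. -/
theorem exists_norm_reduction [hℓ : Fact ℓ.Prime] [CharP k ℓ]
    (hfin : FiniteAlong L (heckeAlphaBar L N ℓ))
    (hdeg : finrankAlong L (heckeAlphaBar L N ℓ) = ℓ + 1)
    (w : FN L (N * ℓ) →ₐ[L] FN L (N * ℓ))
    (hα : ∀ x, w (heckeAlphaBar L N ℓ x) = heckeBetaBar L N ℓ x)
    (hβ : ∀ x, w (heckeBetaBar L N ℓ x) = heckeAlphaBar L N ℓ x)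
    (y : LaurentSeries A) (hy : coeffMap A.subtype y ∈ FN L N) :
    ∃ y' : LaurentSeries A,
      coeffMap A.subtype y' =
        (normAlong (heckeAlphaBar L N ℓ) (heckeBetaBar L N ℓ ⟨_, hy⟩) : LaurentSeries L) ∧
      coeffMap π y' =
        qExpand k ℓ (coeffMap π y) * coeffMap (frobenius k ℓ) (coeffMap π y) := by
  classical
  haveI : CharZero L := algebraRat.charZero L
  obtain ⟨ζ, hζ⟩ := HasEnoughRootsOfUnity.exists_primitiveRoot L ℓ
  have hζ0 : ζ ≠ 0 := hζ.ne_zero hℓ.out.ne_zero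
  have hζA : ζ ∈ A := by
    rcases A.mem_or_inv_mem ζ with h | h
    · exact h
    · have h1 : ζ = ζ⁻¹ ^ (ℓ - 1) := by
        have h2 : ζ ^ (ℓ - 1) * ζ = 1 := by
          rw [← pow_succ, Nat.sub_add_cancel hℓ.out.one_le, hζ.pow_eq_one]
        rw [inv_pow]
        exact (inv_eq_of_mul_eq_one_right h2).symm
      rw [h1]
      exact pow_mem h _
  have hζpow : (⟨ζ, hζA⟩ : A) ^ ℓ = 1 := Subtype.ext hζ.pow_eq_one
  let ζA : Aˣ := Units.ofPowEqOne (⟨ζ, hζA⟩ : A) ℓ hζpow hℓ.out.ne_zero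
  have hζAval : (ζA : A) = ⟨ζ, hζA⟩ := rfl
  let ζL : Lˣ := Units.map A.subtype.toMonoidHom ζA
  have hζL : (ζL : L) = ζ := rfl
  have hord : orderOf ζL = ℓ := by
    have h1 : IsPrimitiveRoot ζL ℓ := by
      rw [← IsPrimitiveRoot.coe_units_iff, hζL]
      exact hζ
    exact h1.eq_orderOf.symm
  -- the reduction of `ζ` is one
  have hπζ : Units.map π.toMonoidHom ζA = 1 := by
    apply Units.ext
    change π ⟨ζ, hζA⟩ = 1
    have h1 : (π ⟨ζ, hζA⟩) ^ ℓ = 1 := by rw [← map_pow, hζpow, map_one]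
    have h2 : (π ⟨ζ, hζA⟩ - 1) ^ ℓ = 0 := by
      rw [sub_pow_char, h1, one_pow, sub_self]
    exact sub_eq_zero.1 (pow_eq_zero_iff hℓ.out.ne_zero |>.1 h2)
  set n := normAlong (heckeAlphaBar L N ℓ) (heckeBetaBar L N ℓ ⟨_, hy⟩) with hn
  have hmain := qExpand_normAlong hℓ.out.one_lt hfin hdeg w hα hβ ζL hord ⟨_, hy⟩
  rw [← hn] at hmain
  let Y : LaurentSeries A := qExpand A ℓ (qExpand A ℓ y) * ∏ i : Fin ℓ, twist (ζA ^ (i : ℕ)) y
  have hY : coeffMap A.subtype Y = qExpand L ℓ (n : LaurentSeries L) := by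
    rw [hmain]
    simp only [Y, map_mul, map_prod, ModFn.coeffMap_qExpand, coeffMap_twist, map_pow]
    rfl
  have hYπ : coeffMap π Y = qExpand k ℓ (qExpand k ℓ (coeffMap π y)) * (coeffMap π y) ^ ℓ := by
    have h1 : ∀ i : Fin ℓ, coeffMap π (twist (ζA ^ (i : ℕ)) y) = coeffMap π y := by
      intro i
      rw [coeffMap_twist, map_pow]
      rw [hπζ, one_pow, twist_one]
    simp only [Y, map_mul, map_prod, ModFn.coeffMap_qExpand, h1, Finset.prod_const,
      Finset.card_univ, Fintype.card_fin]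
  have hY0 : ∀ m : ℤ, ¬ (ℓ : ℤ) ∣ m → Y.coeff m = 0 := by
    intro m hm
    apply Subtype.ext
    have h1 := congrArg (fun s => HahnSeries.coeff s m) hY
    simp only [coeffMap_coeff, qExpand_coeff_of_not_dvd ℓ _ hm] at h1
    exact h1
  refine ⟨contract ℓ Y, ?_, ?_⟩
  · apply qExpand_injective (R := L) ℓ
    rw [← hY, ← ModFn.coeffMap_qExpand, qExpand_contract hY0]
  · apply qExpand_injective (R := k) ℓ
    rw [← ModFn.coeffMap_qExpand, qExpand_contract hY0, hYπ, map_mul, pow_eq_qExpand]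

end Main

end Fermat.Agent.ESh
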