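import Fermat.Agent.ESh.Relation
import Fermat.Agent.ESh.AtkinLehner
import Fermat.Agent.Frob.Basic
import Fermat.Agent.JZ.ModularComm

/-!
# The Eichler-Shimura relation on `Pic⁰`
-/

set_option autoImplicit false
set_option linter.unusedSectionVars false
set_option linter.style.haveILetI false

open AlgebraicCurve ModularCurve Fermat.Agent.JZ Fermat.Agent.ModFn Fermat.Agent.FF
  IntermediateField

namespace Fermat.Agent.ESh

variable {L : Type} [Field L] [Algebra ℚ L] {A : ValuationSubring L} {k : Type*} [Field k]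
  {π : A →+* k} {N M : ℕ} [NeZero N] (S : DivSpec A π N M)

theorem DivSpec.map_principal {D : Divisor L (FN L N)}
    (hD : D ∈ Divisor.principal (K := L) (F := FN L N)) :
    S.toHom D ∈ Divisor.principal (K := k) (F := modularFunctionFieldFullC k M) := by
  have h1 := S.gen hD
  clear hD
  induction h1 using AddSubgroup.closure_induction with
  | mem E hE =>
    obtain ⟨y, hy, hyk, hne, hE⟩ := hE
    exact ⟨⟨_, hyk⟩, fun h => hne (congrArg Subtype.val h), S.div y hy hyk hne E hE⟩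
  | zero => rw [map_zero]; exact zero_mem _
  | add E E' _ _ hE hE' => rw [map_add]; exact add_mem hE hE'
  | neg E _ hE => rw [map_neg]; exact neg_mem hE

/-- the specialisation on divisors of degree zero -/
noncomputable def DivSpec.degZeroHom : Divisor.degZero (K := L) (F := FN L N) →+
    Divisor.degZero (K := k) (F := modularFunctionFieldFullC k M) :=
  (S.toHom.domRestrict (Divisor.degZero (K := L) (F := FN L N))).codRestrict _
    (fun D => S.degree_eq_zero D D.2)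

theorem DivSpec.coe_degZeroHom (D : Divisor.degZero (K := L) (F := FN L N)) :
    (S.degZeroHom D : Divisor k (modularFunctionFieldFullC k M)) = S.toHom D := rfl

/-- the specialisation on `Pic⁰` -/
noncomputable def DivSpec.pic : Pic0 L (FN L N) →+ Pic0 k (modularFunctionFieldFullC k M) :=
  QuotientAddGroup.map _ _ S.degZeroHom (by
    rintro ⟨D, hD0⟩ hD
    simp only [AddSubgroup.mem_comap, AddSubgroup.mem_addSubgroupOf] at hD ⊢
    exact S.map_principal hD)

theorem DivSpec.pic_mk (D : Divisor.degZero (K := L) (F := FN L N)) :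
    S.pic (Pic0.mk D) = Pic0.mk (S.degZeroHom D) := rfl

theorem DivSpec.pic_smul [IsAlgClosed L] [IsFnField L (FN L N)] (σ : L ≃ₐ[ℚ] L) (sA : A →+* A)
    (hsA : ∀ a : A, ((sA a : A) : L) = σ a) (sk : k ≃+* k) (hsk : ∀ a : A, π (sA a) = sk (π a))
    (x : Pic0 L (FN L N)) : S.pic (σ • x) = coeffSemi M sk • S.pic x := by
  obtain ⟨D, rfl⟩ := Pic0.mk_surjective x
  rw [galois_smul_pic0_def, SemilinearAut.pic0_smul_mk, S.pic_mk, S.pic_mk,
    SemilinearAut.pic0_smul_mk]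
  refine congrArg Pic0.mk (Subtype.ext ?_)
  rw [S.coe_degZeroHom, SemilinearAut.coe_degZeroSMulHom, SemilinearAut.coe_degZeroSMulHom,
    S.coe_degZeroHom]
  exact S.smul_eq σ sA hsA sk hsk D D.2

theorem finrankAlong_alpha {L : Type} [Field L] [Algebra ℚ L] {N ℓ : ℕ} [NeZero N] [NeZero ℓ]
    [hℓ : Fact ℓ.Prime] (H : ModularFieldInputs L) (hℓN : ¬ ℓ ∣ N) :
    finrankAlong L (heckeAlphaBar L N ℓ) = ℓ + 1 := by
  rw [heckeAlphaBar_eq_inclusion N ℓ (FN_mono (dvd_mul_right N ℓ)), finrankAlong_inclusion,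
    relfinrank_FN_prime H hℓ.out, if_neg hℓN]

section Hecke

variable {ℓ : ℕ} [NeZero ℓ] [hℓ : Fact ℓ.Prime] [CharP k ℓ] [PerfectRing k ℓ] [Algebra L ℂ]

include hℓ

theorem exists_units_orderOf [IsAlgClosed L] : ∃ ζ : Lˣ, orderOf ζ = ℓ := by
  haveI : CharZero L := algebraRat.charZero L
  haveI : NeZero (ℓ : L) := ⟨by exact_mod_cast hℓ.out.ne_zero⟩
  obtain ⟨ζ, hζ⟩ := HasEnoughRootsOfUnity.exists_primitiveRoot L ℓ
  have h := hζ.isUnit_unit hℓ.out.ne_zero
  exact ⟨_, h.eq_orderOf.symm⟩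

theorem DivSpec.pic_hecke [IsAlgClosed L] (H : ModularFieldInputs L) (hNF : NormInputs L)
    (hℓN : ¬ ℓ ∣ N) (x : Pic0 L (FN L N)) :
    S.pic (heckeOperatorAlong L N ℓ x) = coeffSemi M (frobeniusEquiv k ℓ) • S.pic x +
        (ℓ : ℤ) • ((coeffSemi M (frobeniusEquiv k ℓ))⁻¹ • S.pic x) := by
  haveI := H.fnField N
  obtain ⟨hα, hβ, hP, hfin, hFI, hN⟩ := heckeInputsAlong H hNF N ℓ
  obtain ⟨w, hwα, hwβ⟩ := exists_atkinLehner L N ℓ hℓ.out hℓN
  obtain ⟨D, rfl⟩ := Pic0.mk_surjective x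
  have h1 : heckeOperatorAlong L N ℓ (Pic0.mk D) = Pic0.mk (Pic0.degZeroCorrespondence
      (heckeBetaBar L N ℓ) (heckeAlphaBar L N ℓ) hβ hα hFI D) := by
    rw [heckeOperatorAlong_eq hα hβ hFI hfin hN]
    exact Pic0.correspondence_mk _ _ hβ hα hFI hfin hN D
  rw [h1, S.pic_mk, S.pic_mk, SemilinearAut.pic0_smul_mk, SemilinearAut.pic0_smul_mk]
  have h2 : (ℓ : ℤ) • Pic0.mk (SemilinearAut.degZeroSMulHom
      (coeffSemi M (frobeniusEquiv k ℓ))⁻¹ (S.degZeroHom D)) = Pic0.mk ((ℓ : ℤ) •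
      (SemilinearAut.degZeroSMulHom (coeffSemi M (frobeniusEquiv k ℓ))⁻¹ (S.degZeroHom D))) :=
    rfl
  rw [h2, ← Pic0.mk_add]
  refine congrArg Pic0.mk (Subtype.ext ?_)
  exact S.hecke hα hβ hFI hfin hN (finrankAlong_alpha H hℓN) w hwα hwβ D D.2

/-- **The Eichler-Shimura relation**. -/
theorem DivSpec.pic_frobenius [IsAlgClosed L] (H : ModularFieldInputs L) (hNF : NormInputs L)
    (hπ : ∀ a : A, π a = 0 ↔ ¬ IsUnit a)
    (hℓN : ¬ ℓ ∣ N) (σ : L ≃ₐ[ℚ] L) (hσ : A.IsFrobeniusAt σ ℓ) (x : Pic0 L (FN L N)) :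
    S.pic (σ • σ • x - heckeOperatorAlong L N ℓ (σ • x) + ℓ • x) = 0 := by
  haveI := H.fnField N
  obtain ⟨hσD, hσF⟩ := (Frob.isFrobeniusAt_iff A σ ℓ).1 hσ
  let sA : A →+* A := ((σ : L →+* L).comp A.subtype).codRestrict A.toSubring
    (fun a => (Frob.apply_mem_iff hσD).2 a.2)
  have hsA : ∀ a : A, ((sA a : A) : L) = σ a := fun a => rfl
  have hsk : ∀ a : A, π (sA a) = frobeniusEquiv k ℓ (π a) := by
    intro a
    rw [frobeniusEquiv_apply, frobenius_def, ← map_pow, ← sub_eq_zero, ← map_sub, hπ]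
    have h1 := hσF a a.2
    rw [ValuationSubring.mem_nonunits_iff_exists_mem_maximalIdeal] at h1
    obtain ⟨h2, h3⟩ := h1
    exact (IsLocalRing.mem_maximalIdeal _).1 h3
  have hΦ := S.pic_smul σ sA hsA (frobeniusEquiv k ℓ) hsk
  rw [map_add, map_sub, map_nsmul, S.pic_hecke H hNF hℓN, hΦ, hΦ, inv_smul_smul]
  rw [natCast_zsmul]
  abel

omit hℓ

/-- **Invariance under inertia**. -/
theorem DivSpec.pic_inertia [IsAlgClosed L] (H : ModularFieldInputs L)
    (hπ : ∀ a : A, π a = 0 ↔ ¬ IsUnit a)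
    (σ : L ≃ₐ[ℚ] L) (hσ : σ ∈ A.inertiaSubgroupIn ℚ) (x : Pic0 L (FN L N)) :
    S.pic (σ • x) = S.pic x := by
  haveI := H.fnField N
  obtain ⟨hσD, hσF⟩ := (Frob.mem_inertiaSubgroupIn_iff A σ).1 hσ
  let sA : A →+* A := ((σ : L →+* L).comp A.subtype).codRestrict A.toSubring
    (fun a => (Frob.apply_mem_iff hσD).2 a.2)
  have hsA : ∀ a : A, ((sA a : A) : L) = σ a := fun a => rfl
  have hsk : ∀ a : A, π (sA a) = RingEquiv.refl k (π a) := by
    intro a
    rw [RingEquiv.refl_apply, ← sub_eq_zero, ← map_sub, hπ]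
    have h1 := hσF a a.2
    rw [ValuationSubring.mem_nonunits_iff_exists_mem_maximalIdeal] at h1
    obtain ⟨h2, h3⟩ := h1
    exact (IsLocalRing.mem_maximalIdeal _).1 h3
  rw [S.pic_smul σ sA hsA (RingEquiv.refl k) hsk]
  have h1 : coeffSemi M (RingEquiv.refl k) = 1 := by
    refine Subtype.ext (Prod.ext (RingEquiv.ext fun x => Subtype.ext ?_) rfl)
    exact coeffMap_id _
  rw [h1, one_smul]

end Hecke

end Fermat.Agent.ESh
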