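import Fermat.Agent.RR.HOne

/-!
# Rigidity: bounded functionals on divisors killing principal divisors
-/

set_option autoImplicit false
set_option linter.unusedSectionVars false

open WithZero AlgebraicCurve Fermat.Agent.FF Fermat.Agent.RR Module

namespace Fermat.Agent.ESh

variable {K F : Type*} [Field K] [Field F] [Algebra K F] [IsAlgClosed K] [IsFnField K F]

theorem divOf_isPrincipal {f : F} (hf : f ≠ 0) : Divisor.IsPrincipal (RR.divOf (K := K) f) :=
  ⟨f, hf, fun v => RR.divOf_apply f v⟩

/-- an additive functional bounded on places is bounded on effective divisors of given degree. -/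
theorem abs_le_of_nonneg (δ : Divisor K F →+ ℤ) (C : ℤ)
    (hC : ∀ P : Place K F, |δ (Finsupp.single P 1)| ≤ C) (E : Divisor K F) (hE : 0 ≤ E) :
    |δ E| ≤ C * Divisor.degree E := by
  classical
  have h1 : δ E = ∑ v ∈ E.support, E v * δ (Finsupp.single v 1) := by
    conv_lhs => rw [← Finsupp.sum_single E, Finsupp.sum]
    rw [map_sum]
    refine Finset.sum_congr rfl fun v _ => ?_
    have : (Finsupp.single v (E v) : Divisor K F) = E v • Finsupp.single v 1 := by
      rw [Finsupp.smul_single, smul_eq_mul, mul_one]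
    rw [this, map_zsmul, smul_eq_mul]
  rw [h1, degree_eq_sum, Finsupp.sum, Finset.mul_sum]
  refine (Finset.abs_sum_le_sum_abs _ _).trans (Finset.sum_le_sum fun v _ => ?_)
  rw [abs_mul, abs_of_nonneg (hE v), mul_comm]
  exact mul_le_mul_of_nonneg_right (hC v) (hE v)

/-- **Rigidity**: an additive functional on divisors which is bounded on places and kills principal
divisors vanishes on divisors of degree zero. -/
theorem eq_zero_of_bounded (δ : Divisor K F →+ ℤ) (C : ℤ)
    (hC : ∀ P : Place K F, |δ (Finsupp.single P 1)| ≤ C)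
    (hprin : ∀ D : Divisor K F, Divisor.IsPrincipal D → δ D = 0)
    (D : Divisor K F) (hD : Divisor.degree D = 0) : δ D = 0 := by
  classical
  rcases isEmpty_or_nonempty (Place K F) with h | ⟨⟨P0⟩⟩
  · have : D = 0 := Subsingleton.elim _ _
    rw [this, map_zero]
  obtain ⟨c, hc⟩ := exists_defect_le K F
  obtain ⟨g, hg⟩ : ∃ g : ℕ, c < g := ⟨(c + 1).toNat, by omega⟩
  by_contra hne
  have hC0 : 0 ≤ C := (abs_nonneg _).trans (hC P0)
  have key : ∀ n : ℕ, (n : ℤ) * |δ D| ≤ C * g + g * C := by
    intro n
    have hdeg : Divisor.degree ((n : ℤ) • D + (g : ℤ) • Finsupp.single P0 1) = g := by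
      rw [map_add, map_zsmul, map_zsmul, hD, degree_single', smul_zero, zero_add, smul_eq_mul,
        mul_one]
    have h1 := hc ((n : ℤ) • D + (g : ℤ) • Finsupp.single P0 1)
    rw [defect, hdeg] at h1
    have h2 : 0 < ell ((n : ℤ) • D + (g : ℤ) • Finsupp.single P0 1) := by omega
    obtain ⟨f, hf, hf0⟩ := exists_mem_ne_zero_of_ell_pos h2
    rw [mem_riemannRochSpace_iff_divOf hf0] at hf
    have h3 := abs_le_of_nonneg δ C hC _ hf
    rw [map_add Divisor.degree, hdeg, RR.degree_divOf, add_zero, map_add, hprin _ (divOf_isPrincipal hf0),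
      add_zero, map_add, map_zsmul, map_zsmul, smul_eq_mul, smul_eq_mul] at h3
    have h4 := hC P0
    have h5 : |(n : ℤ) * δ D| ≤ |(n : ℤ) * δ D + g * δ (Finsupp.single P0 1)| +
        |(g : ℤ) * δ (Finsupp.single P0 1)| := by
      have := abs_sub ((n : ℤ) * δ D + g * δ (Finsupp.single P0 1)) (g * δ (Finsupp.single P0 1))
      rwa [add_sub_cancel_right] at this
    rw [abs_mul, Nat.abs_cast] at h5
    have h6 : |(g : ℤ) * δ (Finsupp.single P0 1)| ≤ g * C := by
      rw [abs_mul, Nat.abs_cast]
      exact mul_le_mul_of_nonneg_left h4 (by positivity)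
    linarith
  have h1 : 1 ≤ |δ D| := Int.one_le_abs hne
  have h2 := key ((C * g + g * C).toNat + 1)
  have h3 : 0 ≤ C * g + g * C := by positivity
  push_cast at h2
  rw [Int.toNat_of_nonneg h3] at h2
  nlinarith

/-- Rigidity for homomorphisms between divisor groups. -/
theorem eq_zero_of_bounded' {ι : Type*} (δ : Divisor K F →+ (ι →₀ ℤ)) (C : ℤ)
    (hC : ∀ (P : Place K F) (Y : ι), |δ (Finsupp.single P 1) Y| ≤ C)
    (hprin : ∀ D : Divisor K F, Divisor.IsPrincipal D → δ D = 0)
    (D : Divisor K F) (hD : Divisor.degree D = 0) : δ D = 0 := by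
  ext Y
  exact eq_zero_of_bounded ((Finsupp.applyAddHom Y).comp δ) C (fun P => hC P Y)
    (fun D hD => by
      change (δ D) Y = 0
      rw [hprin D hD]
      rfl) D hD

end Fermat.Agent.ESh
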