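import Fermat.Agent.ESh.NormRed
import Fermat.Agent.ESh.Rigid
import Fermat.Prelude.Def_ModularCurve_ReductionModL

/-!
# The Eichler-Shimura relation on divisors of degree zero
-/

set_option autoImplicit false
set_option linter.unusedSectionVars false
set_option linter.style.haveILetI false

open AlgebraicCurve ModularCurve Fermat.Agent.JZ Fermat.Agent.ModFn Fermat.Agent.FF
  IntermediateField

namespace Fermat.Agent.ESh

/-! ### coefficientwise automorphisms in characteristic `ℓ` -/

section Coeff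

variable {k : Type*} [Field k] (M : ℕ)

theorem coeffMap_mem_full (τ : k →+* k) {x : LaurentSeries k}
    (hx : x ∈ modularFunctionFieldFullC k M) :
    coeffMap τ x ∈ modularFunctionFieldFullC k M := by
  have h1 : x ∈ Subfield.closure (Set.range (algebraMap k (LaurentSeries k)) ∪
      divisorExpansionsC k M) := hx
  clear hx
  induction h1 using Subfield.closure_induction with
  | mem y hy =>
    rcases hy with ⟨a, rfl⟩ | ⟨d, hd, hdM, rfl⟩
    · rw [coeffMap_algebraMap]
      exact IntermediateField.algebraMap_mem _ _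
    · rw [ModFn.coeffMap_qExpand, ModFn.coeffMap_jqModC]
      exact jqModCd_mem_full k M hdM
  | one => simp
  | add x y _ _ hx hy => simpa using add_mem hx hy
  | neg x _ hx => simpa using neg_mem hx
  | inv x _ hx => simpa using inv_mem hx
  | mul x y _ _ hx hy => simpa using mul_mem hx hy

/-- the coefficientwise action of an automorphism of `k` on the function field mod `ℓ`. -/
noncomputable def coeffSemi (τ : k ≃+* k) : SemilinearAut k (modularFunctionFieldFullC k M) :=
  ⟨(⟨⟨fun x => ⟨coeffMap (τ : k →+* k) (x : LaurentSeries k), coeffMap_mem_full M _ x.2⟩,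
      fun x => ⟨coeffMap (τ.symm : k →+* k) (x : LaurentSeries k), coeffMap_mem_full M _ x.2⟩,
      fun x => Subtype.ext (by
        change coeffMap (τ.symm : k →+* k) (coeffMap (τ : k →+* k) (x : LaurentSeries k)) = x
        rw [coeffMap_coeffMap, coeffMap_congr (g := RingHom.id k)
          (RingHom.ext fun a => τ.symm_apply_apply a), coeffMap_id]),
      fun x => Subtype.ext (by
        change coeffMap (τ : k →+* k) (coeffMap (τ.symm : k →+* k) (x : LaurentSeries k)) = x
        rw [coeffMap_coeffMap, coeffMap_congr (g := RingHom.id k)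
          (RingHom.ext fun a => τ.apply_symm_apply a), coeffMap_id])⟩,
      fun x y => Subtype.ext (map_mul (coeffMap (τ : k →+* k)) _ _),
      fun x y => Subtype.ext (map_add (coeffMap (τ : k →+* k)) _ _)⟩, τ),
    fun a => Subtype.ext (coeffMap_algebraMap (τ : k →+* k) a)⟩

theorem coe_coeffSemi_smul (τ : k ≃+* k) (x : modularFunctionFieldFullC k M) :
    ((coeffSemi M τ • x : modularFunctionFieldFullC k M) : LaurentSeries k) =
      coeffMap (τ : k →+* k) (x : LaurentSeries k) := rfl

end Coeff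

/-! ### reduction of divisors -/

variable {L : Type} [Field L] [Algebra ℚ L]

/-- A specialisation of divisors on `X₀(N)` over `L` to divisors on a curve in characteristic `ℓ`
whose function field is `modularFunctionFieldFullC k M`. -/
structure DivSpec (A : ValuationSubring L) {k : Type*} [Field k] (π : A →+* k) (N M : ℕ)
    [NeZero N] where
  /-- the underlying homomorphism -/
  toHom : Divisor L (FN L N) →+ Divisor k (modularFunctionFieldFullC k M)
  /-- the bound -/
  C : ℤ
  bounded : ∀ P Y, |toHom (Finsupp.single P 1) Y| ≤ C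
  degree_eq_zero : ∀ D, Divisor.degree D = 0 → Divisor.degree (toHom D) = 0
  div : ∀ (y : LaurentSeries A) (hy : coeffMap A.subtype y ∈ FN L N)
    (hyk : coeffMap π y ∈ modularFunctionFieldFullC k M), coeffMap π y ≠ 0 →
    ∀ D : Divisor L (FN L N), (∀ P, D P = P.ord (⟨coeffMap A.subtype y, hy⟩ : FN L N)) →
      ∀ Q, toHom D Q = Q.ord (⟨coeffMap π y, hyk⟩ : modularFunctionFieldFullC k M)
  gen : Divisor.principal (K := L) (F := FN L N) ≤
    AddSubgroup.closure {D | ∃ (y : LaurentSeries A) (hy : coeffMap A.subtype y ∈ FN L N),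
      coeffMap π y ∈ modularFunctionFieldFullC k M ∧ coeffMap π y ≠ 0 ∧
        ∀ P, D P = P.ord (⟨coeffMap A.subtype y, hy⟩ : FN L N)}

variable {A : ValuationSubring L} {k : Type*} [Field k] {π : A →+* k} {N M : ℕ} [NeZero N]
  (S : DivSpec A π N M)

include S in
/-- Rigidity: a bounded homomorphism killing the divisors of integral functions kills all
divisors of degree zero. -/
theorem DivSpec.eq_zero [IsAlgClosed L] [IsFnField L (FN L N)]
    {ι : Type*} (δ : Divisor L (FN L N) →+ (ι →₀ ℤ)) (C : ℤ)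
    (hC : ∀ P Y, |δ (Finsupp.single P 1) Y| ≤ C)
    (h : ∀ (y : LaurentSeries A) (hy : coeffMap A.subtype y ∈ FN L N),
      coeffMap π y ∈ modularFunctionFieldFullC k M → coeffMap π y ≠ 0 →
        ∀ D : Divisor L (FN L N), (∀ P, D P = P.ord (⟨coeffMap A.subtype y, hy⟩ : FN L N)) →
          δ D = 0)
    (D : Divisor L (FN L N)) (hD : Divisor.degree D = 0) : δ D = 0 := by
  refine eq_zero_of_bounded' δ C hC (fun D hD => ?_) D hD
  have h1 := S.gen hD
  clear hD
  induction h1 using AddSubgroup.closure_induction with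
  | mem E hE =>
    obtain ⟨y, hy, hyk, hne, hE⟩ := hE
    exact h y hy hyk hne E hE
  | zero => exact map_zero δ
  | add E E' _ _ hE hE' => rw [map_add, hE, hE', add_zero]
  | neg E _ hE => rw [map_neg, hE, neg_zero]

section Smul

/-- divisors of conjugate functions -/
theorem smul_apply_of_ord {K F : Type*} [Field K] [Field F] [Algebra K F] (g : SemilinearAut K F)
    {D : Divisor K F} {f : F} (hD : ∀ P, D P = P.ord f) (P : Place K F) :
    (g • D) P = P.ord (g • f) := by
  rw [SemilinearAut.divisor_smul_apply, hD]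
  have h := SemilinearAut.ord_smul g (g⁻¹ • P) f
  rw [smul_inv_smul] at h
  exact h.symm

theorem smul_single_bounded {K F : Type*} [Field K] [Field F] [Algebra K F]
    (g : SemilinearAut K F) {D : Divisor K F} {C : ℤ} (h : ∀ Y, |D Y| ≤ C) (Y : Place K F) :
    |(g • D) Y| ≤ C := by
  rw [SemilinearAut.divisor_smul_apply]
  exact h _

/-- **Galois equivariance** of the specialisation on divisors of degree zero. -/
theorem DivSpec.smul_eq [IsAlgClosed L] [IsFnField L (FN L N)] (σ : L ≃ₐ[ℚ] L) (sA : A →+* A)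
    (hsA : ∀ a : A, ((sA a : A) : L) = σ a) (sk : k ≃+* k) (hsk : ∀ a : A, π (sA a) = sk (π a))
    (D : Divisor L (FN L N)) (hD : Divisor.degree D = 0) :
    S.toHom (arithmeticGalois (modularFunctionFieldFull N) σ • D) =
      coeffSemi M sk • S.toHom D := by
  rw [← sub_eq_zero]
  let δ : Divisor L (FN L N) →+ Divisor k (modularFunctionFieldFullC k M) :=
    S.toHom.comp (DistribSMul.toAddMonoidHom _ (arithmeticGalois (modularFunctionFieldFull N) σ)) -
      (DistribSMul.toAddMonoidHom _ (coeffSemi M sk)).comp S.toHom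
  have hδ : ∀ D, δ D = S.toHom (arithmeticGalois (modularFunctionFieldFull N) σ • D) -
      coeffSemi M sk • S.toHom D := fun D => rfl
  rw [← hδ]
  refine S.eq_zero δ (S.C + S.C) ?_ ?_ D hD
  · intro P Y
    rw [hδ, Finsupp.sub_apply, SemilinearAut.smul_single]
    refine (abs_sub _ _).trans (add_le_add (S.bounded _ _) ?_)
    exact smul_single_bounded _ (fun Y => S.bounded P Y) Y
  · intro y hy hyk hne D hD
    rw [hδ, sub_eq_zero]
    ext Q
    -- the conjugate function
    have hy' : coeffMap A.subtype (coeffMap sA y) =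
        coeffMap (σ : L →+* L) (coeffMap A.subtype y) := by
      rw [coeffMap_coeffMap, coeffMap_coeffMap]
      exact coeffMap_congr (RingHom.ext fun a => hsA a) y
    have hyk' : coeffMap π (coeffMap sA y) = coeffMap (sk : k →+* k) (coeffMap π y) := by
      rw [coeffMap_coeffMap, coeffMap_coeffMap]
      exact coeffMap_congr (RingHom.ext fun a => hsk a) y
    have hmem : coeffMap A.subtype (coeffMap sA y) ∈ FN L N := by
      rw [hy']
      exact (arithmeticRingAut (modularFunctionFieldFull N) σ ⟨_, hy⟩).2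
    have hmemk : coeffMap π (coeffMap sA y) ∈ modularFunctionFieldFullC k M := by
      rw [hyk']
      exact coeffMap_mem_full M _ hyk
    have hne' : coeffMap π (coeffMap sA y) ≠ 0 := by
      rw [hyk']
      intro h0
      apply hne
      have := coeffMap_injective (f := (sk : k →+* k)) sk.injective
      exact this (by rw [h0, map_zero])
    have h1 := S.div (coeffMap sA y) hmem hmemk hne'
      (arithmeticGalois (modularFunctionFieldFull N) σ • D) (fun P => by
        rw [smul_apply_of_ord _ hD]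
        congr 1
        exact Subtype.ext hy'.symm) Q
    rw [h1, smul_apply_of_ord _ (S.div y hy hyk hne D hD)]
    congr 1
    exact Subtype.ext hyk'

end Smul

section Hecke

variable {ℓ : ℕ} [NeZero ℓ] [hℓ : Fact ℓ.Prime] [CharP k ℓ]

theorem pullbackAlong_nonneg {K F F' : Type*} [Field K] [Field F] [Field F'] [Algebra K F]
    [Algebra K F'] [HasPrincipalDivisors K F'] (φ : F →ₐ[K] F') (hφ : φ.toRingHom.IsIntegral)
    {D : Divisor K F} (hD : 0 ≤ D) : 0 ≤ Divisor.pullbackAlong φ hφ D := by
  intro w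
  rw [Divisor.pullbackAlong_apply]
  exact mul_nonneg (by positivity) (hD _)

theorem pushforwardAlong_nonneg {K F F' : Type*} [Field K] [Field F] [Field F'] [Algebra K F]
    [Algebra K F'] (φ : F →ₐ[K] F') (hφ : φ.toRingHom.IsIntegral)
    {D : Divisor K F'} (hD : 0 ≤ D) : 0 ≤ Divisor.pushforwardAlong φ hφ D := by
  classical
  intro v
  letI := algebraAlong φ
  haveI := isScalarTower_along φ
  haveI := isIntegral_along φ hφ
  change 0 ≤ Divisor.pushforward F D v
  rw [Divisor.pushforward_apply]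
  refine Finset.sum_nonneg fun w _ => ?_
  split_ifs
  · exact mul_nonneg (hD w) (by positivity)
  · exact le_rfl

theorem coe_frob_smul [PerfectRing k ℓ] (x : modularFunctionFieldFullC k M) :
    ((coeffSemi M (frobeniusEquiv k ℓ) • x : modularFunctionFieldFullC k M) : LaurentSeries k) =
      coeffMap (frobenius k ℓ) (x : LaurentSeries k) := by
  rw [coe_coeffSemi_smul]
  refine coeffMap_congr (RingHom.ext fun a => ?_) _
  rw [RingHom.coe_coe, frobeniusEquiv_apply]

theorem inv_frob_smul_pow [PerfectRing k ℓ] (z : modularFunctionFieldFullC k M) :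
    (((coeffSemi M (frobeniusEquiv k ℓ))⁻¹ • z : modularFunctionFieldFullC k M) :
      LaurentSeries k) ^ ℓ = qExpand k ℓ (z : LaurentSeries k) := by
  have h1 : coeffSemi M (frobeniusEquiv k ℓ) • ((coeffSemi M (frobeniusEquiv k ℓ))⁻¹ • z) = z :=
    smul_inv_smul _ z
  have h2 := coe_frob_smul (ℓ := ℓ) ((coeffSemi M (frobeniusEquiv k ℓ))⁻¹ • z)
  rw [h1] at h2
  rw [pow_eq_qExpand, ← h2]

theorem smul_ne_zero_of {K F : Type*} [Field K] [Field F] [Algebra K F] (g : SemilinearAut K F)
    {z : F} (hz : z ≠ 0) : g • z ≠ 0 := fun h => hz (by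
  have := congrArg (fun t => g⁻¹ • t) h
  simpa using this)

/-- the divisor of the norm -/
theorem correspondence_apply_of_ord [HasPrincipalDivisors L (FN L (N * ℓ))]
    (hα : (heckeAlphaBar L N ℓ).toRingHom.IsIntegral)
    (hβ : (heckeBetaBar L N ℓ).toRingHom.IsIntegral)
    (hfin : FiniteAlong L (heckeAlphaBar L N ℓ))
    (hN : NormFormulaAlong L (heckeAlphaBar L N ℓ) hfin)
    {D : Divisor L (FN L N)} {h : FN L N} (hh0 : h ≠ 0) (hD : ∀ P, D P = P.ord h)
    (P : Place L (FN L N)) :
    Divisor.correspondence (heckeBetaBar L N ℓ) (heckeAlphaBar L N ℓ) hβ hα D P =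
      P.ord (normAlong (heckeAlphaBar L N ℓ) (heckeBetaBar L N ℓ h)) := by
  have h1 : ∀ w, Divisor.pullbackAlong (heckeBetaBar L N ℓ) hβ D w =
      w.ord (heckeBetaBar L N ℓ h) := by
    intro w
    rw [Divisor.pullbackAlong_apply, hD, Place.ord_restrictAlong _ hβ]
  have h2 := pushforwardAlong_apply_of_ord (heckeAlphaBar L N ℓ) hα hfin hN
    (f := heckeBetaBar L N ℓ h) (fun h0 => hh0 ((map_eq_zero_iff (heckeBetaBar L N ℓ)
      (heckeBetaBar L N ℓ).toRingHom.injective).1 h0)) h1 P
  rw [Divisor.correspondence_apply, h2]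

/-- boundedness of the Hecke correspondence composed with a specialisation -/
theorem DivSpec.correspondence_bounded [IsAlgClosed L] [IsFnField L (FN L N)]
    [HasPrincipalDivisors L (FN L (N * ℓ))]
    (hα : (heckeAlphaBar L N ℓ).toRingHom.IsIntegral)
    (hβ : (heckeBetaBar L N ℓ).toRingHom.IsIntegral)
    (hFI : FundamentalIdentityAlong L (heckeBetaBar L N ℓ) hβ) (P : Place L (FN L N))
    (Y : Place k (modularFunctionFieldFullC k M)) :
    |S.toHom (Divisor.correspondence (heckeBetaBar L N ℓ) (heckeAlphaBar L N ℓ) hβ hα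
      (Finsupp.single P 1)) Y| ≤ S.C * (finrankAlong L (heckeBetaBar L N ℓ)) := by
  have hTP : 0 ≤ Divisor.correspondence (heckeBetaBar L N ℓ) (heckeAlphaBar L N ℓ) hβ hα
      (Finsupp.single P 1) := by
    rw [Divisor.correspondence_apply]
    refine pushforwardAlong_nonneg _ hα (pullbackAlong_nonneg _ hβ ?_)
    intro v
    classical
    rw [Finsupp.coe_zero, Pi.zero_apply, Finsupp.single_apply]
    split_ifs <;> norm_num
  have hTdeg : Divisor.degree (Divisor.correspondence (heckeBetaBar L N ℓ)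
      (heckeAlphaBar L N ℓ) hβ hα (Finsupp.single P 1)) =
      finrankAlong L (heckeBetaBar L N ℓ) := by
    rw [Divisor.degree_correspondence _ _ _ _ hFI, RR.degree_single', mul_one]
  have h1 := abs_le_of_nonneg ((Finsupp.applyAddHom Y).comp S.toHom) S.C
    (fun P => S.bounded P Y) _ hTP
  rw [hTdeg] at h1
  exact h1

/-- the relation for the divisor of an integral function -/
theorem DivSpec.hecke_aux [PerfectRing k ℓ] [IsAlgClosed L]
    [HasPrincipalDivisors L (FN L (N * ℓ))]
    (hα : (heckeAlphaBar L N ℓ).toRingHom.IsIntegral)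
    (hβ : (heckeBetaBar L N ℓ).toRingHom.IsIntegral)
    (hfin : FiniteAlong L (heckeAlphaBar L N ℓ))
    (hN : NormFormulaAlong L (heckeAlphaBar L N ℓ) hfin)
    (hdeg : finrankAlong L (heckeAlphaBar L N ℓ) = ℓ + 1)
    (w : FN L (N * ℓ) →ₐ[L] FN L (N * ℓ))
    (hwα : ∀ x, w (heckeAlphaBar L N ℓ x) = heckeBetaBar L N ℓ x)
    (hwβ : ∀ x, w (heckeBetaBar L N ℓ x) = heckeAlphaBar L N ℓ x)
    (y : LaurentSeries A) (hy : coeffMap A.subtype y ∈ FN L N)
    (hyk : coeffMap π y ∈ modularFunctionFieldFullC k M) (hne : coeffMap π y ≠ 0)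
    (D : Divisor L (FN L N)) (hD : ∀ P, D P = P.ord (⟨coeffMap A.subtype y, hy⟩ : FN L N)) :
    S.toHom (Divisor.correspondence (heckeBetaBar L N ℓ) (heckeAlphaBar L N ℓ) hβ hα D) =
      coeffSemi M (frobeniusEquiv k ℓ) • S.toHom D +
        (ℓ : ℤ) • ((coeffSemi M (frobeniusEquiv k ℓ))⁻¹ • S.toHom D) := by
  obtain ⟨y', hy', hyk'⟩ := exists_norm_reduction A π hfin hdeg w hwα hwβ y hy
  have hprod : coeffMap π y' = (((coeffSemi M (frobeniusEquiv k ℓ))⁻¹ •
      (⟨coeffMap π y, hyk⟩ : modularFunctionFieldFullC k M)) ^ ℓ *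
      (coeffSemi M (frobeniusEquiv k ℓ) • (⟨coeffMap π y, hyk⟩ : modularFunctionFieldFullC k M)) :
        modularFunctionFieldFullC k M) := by
    rw [hyk', MulMemClass.coe_mul, SubmonoidClass.coe_pow, inv_frob_smul_pow, coe_frob_smul]
  have hz0 : (⟨coeffMap π y, hyk⟩ : modularFunctionFieldFullC k M) ≠ 0 :=
    fun h => hne (congrArg Subtype.val h)
  have hΦz0 := smul_ne_zero_of (coeffSemi M (frobeniusEquiv k ℓ)) hz0
  have hΦz0' := smul_ne_zero_of (coeffSemi M (frobeniusEquiv k ℓ))⁻¹ hz0
  have hmemk : coeffMap π y' ∈ modularFunctionFieldFullC k M := by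
    rw [hprod]; exact Subtype.property _
  have hne' : coeffMap π y' ≠ 0 := by
    rw [hprod]
    intro h0
    exact mul_ne_zero (pow_ne_zero _ hΦz0') hΦz0 (Subtype.ext h0)
  have hmem : coeffMap A.subtype y' ∈ FN L N := by
    rw [hy']; exact Subtype.property _
  have hh0 : (⟨coeffMap A.subtype y, hy⟩ : FN L N) ≠ 0 := by
    intro h0
    apply hne
    have h1 : coeffMap A.subtype y = 0 := congrArg Subtype.val h0
    have h2 : y = 0 := coeffMap_subtype_injective A (by rw [h1, map_zero])
    rw [h2, map_zero]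
  have hTD : ∀ P, Divisor.correspondence (heckeBetaBar L N ℓ) (heckeAlphaBar L N ℓ) hβ hα D P =
      P.ord (⟨coeffMap A.subtype y', hmem⟩ : FN L N) := by
    intro P
    rw [correspondence_apply_of_ord hα hβ hfin hN hh0 hD P]
    congr 1
    exact Subtype.ext hy'.symm
  ext Q
  rw [S.div y' hmem hmemk hne' _ hTD Q, Finsupp.add_apply, Finsupp.smul_apply,
    smul_apply_of_ord _ (S.div y hy hyk hne D hD), smul_apply_of_ord _ (S.div y hy hyk hne D hD)]
  have h3 : (⟨coeffMap π y', hmemk⟩ : modularFunctionFieldFullC k M) =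
      ((coeffSemi M (frobeniusEquiv k ℓ))⁻¹ •
      (⟨coeffMap π y, hyk⟩ : modularFunctionFieldFullC k M)) ^ ℓ *
      (coeffSemi M (frobeniusEquiv k ℓ) •
        (⟨coeffMap π y, hyk⟩ : modularFunctionFieldFullC k M)) := Subtype.ext hprod
  rw [h3, Place.ord_mul _ (pow_ne_zero _ hΦz0') hΦz0, FF.ord_pow, smul_eq_mul, add_comm]

/-- **Eichler-Shimura relation** `T_ℓ = Fr + ℓ Fr⁻¹` on divisors of degree zero. -/
theorem DivSpec.hecke [IsAlgClosed L] [IsFnField L (FN L N)] [PerfectRing k ℓ]
    [HasPrincipalDivisors L (FN L (N * ℓ))]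
    (hα : (heckeAlphaBar L N ℓ).toRingHom.IsIntegral)
    (hβ : (heckeBetaBar L N ℓ).toRingHom.IsIntegral)
    (hFI : FundamentalIdentityAlong L (heckeBetaBar L N ℓ) hβ)
    (hfin : FiniteAlong L (heckeAlphaBar L N ℓ))
    (hN : NormFormulaAlong L (heckeAlphaBar L N ℓ) hfin)
    (hdeg : finrankAlong L (heckeAlphaBar L N ℓ) = ℓ + 1)
    (w : FN L (N * ℓ) →ₐ[L] FN L (N * ℓ))
    (hwα : ∀ x, w (heckeAlphaBar L N ℓ x) = heckeBetaBar L N ℓ x)
    (hwβ : ∀ x, w (heckeBetaBar L N ℓ x) = heckeAlphaBar L N ℓ x)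
    (D : Divisor L (FN L N)) (hD : Divisor.degree D = 0) :
    S.toHom (Divisor.correspondence (heckeBetaBar L N ℓ) (heckeAlphaBar L N ℓ) hβ hα D) =
      coeffSemi M (frobeniusEquiv k ℓ) • S.toHom D +
        (ℓ : ℤ) • ((coeffSemi M (frobeniusEquiv k ℓ))⁻¹ • S.toHom D) := by
  rw [← sub_eq_zero]
  let δ : Divisor L (FN L N) →+ Divisor k (modularFunctionFieldFullC k M) :=
    S.toHom.comp (Divisor.correspondence (heckeBetaBar L N ℓ) (heckeAlphaBar L N ℓ) hβ hα) -
      ((DistribSMul.toAddMonoidHom _ (coeffSemi M (frobeniusEquiv k ℓ))).comp S.toHom +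
      (ℓ : ℤ) • (DistribSMul.toAddMonoidHom _ (coeffSemi M (frobeniusEquiv k ℓ))⁻¹).comp S.toHom)
  have hδ : ∀ D, δ D =
      S.toHom (Divisor.correspondence (heckeBetaBar L N ℓ) (heckeAlphaBar L N ℓ) hβ hα D) -
      (coeffSemi M (frobeniusEquiv k ℓ) • S.toHom D +
        (ℓ : ℤ) • ((coeffSemi M (frobeniusEquiv k ℓ))⁻¹ • S.toHom D)) :=
    fun D => rfl
  rw [← hδ]
  refine S.eq_zero δ (S.C * (finrankAlong L (heckeBetaBar L N ℓ)) + (S.C + ℓ * S.C)) ?_ ?_ D hD
  · intro P Y
    rw [hδ, Finsupp.sub_apply, Finsupp.add_apply, Finsupp.smul_apply]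
    refine (abs_sub _ _).trans (add_le_add (S.correspondence_bounded hα hβ hFI P Y) ?_)
    refine (abs_add_le _ _).trans (add_le_add ?_ ?_)
    · exact smul_single_bounded _ (fun Y => S.bounded P Y) Y
    · rw [smul_eq_mul, abs_mul, Nat.abs_cast]
      exact mul_le_mul_of_nonneg_left
        (smul_single_bounded _ (fun Y => S.bounded P Y) Y) (by positivity)
  · intro y hy hyk hne D hD
    rw [hδ, sub_eq_zero]
    exact S.hecke_aux hα hβ hfin hN hdeg w hwα hwβ y hy hyk hne D hD

end Hecke

end Fermat.Agent.ESh
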