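import Fermat.Agent.ESh.Relation
import Fermat.Agent.Red.RelExt
import Fermat.Agent.Red.Torsion
import Fermat.Agent.RR.HOne
import Fermat.Agent.JZ.Along

/-!
# Functoriality of the specialisation of divisors
-/

set_option autoImplicit false
set_option linter.unusedSectionVars false
set_option linter.style.haveILetI false

open AlgebraicCurve Fermat.Agent.JZ Fermat.Agent.FF IntermediateField Module

namespace Fermat.Agent.ESh

section Basic

variable {K F : Type*} [Field K] [IsAlgClosed K] [Field F] [Algebra K F] [IsFnField K F]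

theorem single_nonneg (P : Place K F) : 0 ≤ (Finsupp.single P 1 : Divisor K F) := by
  classical
  intro v
  rw [Finsupp.coe_zero, Pi.zero_apply, Finsupp.single_apply]
  split_ifs <;> norm_num

/-- the coefficients of an effective divisor are bounded by its degree -/
theorem abs_apply_le_degree {E : Divisor K F} (hE : 0 ≤ E) (Y : Place K F) :
    |E Y| ≤ Divisor.degree E := by
  classical
  have h1 := abs_le_of_nonneg (Finsupp.applyAddHom (M := ℤ) Y) 1 (fun P => by
    change |(Finsupp.single P (1 : ℤ)) Y| ≤ 1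
    rw [Finsupp.single_apply]
    split_ifs <;> norm_num) E hE
  rw [one_mul] at h1
  exact h1

end Basic

section Ramification

variable {K F F' : Type*} [Field K] [IsAlgClosed K] [Field F] [Algebra K F] [IsFnField K F]
  [Field F'] [Algebra K F'] [IsFnField K F']

/-- a function with only pole at a given place. -/
theorem exists_pole_only (Y : Place K F) : ∃ f : F, Transcendental K f ∧ Y.ord f < 0 ∧
    ∀ v : Place K F, v ≠ Y → 0 ≤ v.ord f := by
  set g := genusFF K F with hg
  have h1 := RR.riemann_ineq (K := K) (F := F) (Finsupp.single Y ((g : ℤ) + 1))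
  rw [RR.degree_single'] at h1
  have h2 : 2 ≤ RR.ell (Finsupp.single Y ((g : ℤ) + 1) : Divisor K F) := by
    have : (2 : ℤ) ≤ RR.ell (Finsupp.single Y ((g : ℤ) + 1) : Divisor K F) := by
      have h3 : (RR.ell (Finsupp.single Y ((g : ℤ) + 1) : Divisor K F) : ℤ) =
        finrank K (riemannRochSpace (Finsupp.single Y ((g : ℤ) + 1) : Divisor K F)) := rfl
      omega
    exact_mod_cast this
  -- a nonconstant element
  obtain ⟨f, hf, hfc⟩ : ∃ f ∈ riemannRochSpace (Finsupp.single Y ((g : ℤ) + 1) : Divisor K F),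
      ∀ a : K, f ≠ algebraMap K F a := by
    by_contra hcon
    push Not at hcon
    have hle : riemannRochSpace (Finsupp.single Y ((g : ℤ) + 1) : Divisor K F) ≤ K ∙ (1 : F) := by
      intro f hf
      obtain ⟨a, ha⟩ := hcon f hf
      rw [Submodule.mem_span_singleton]
      exact ⟨a, by rw [ha, Algebra.smul_def, mul_one]⟩
    have h4 := Submodule.finrank_mono hle
    have h5 : finrank K (K ∙ (1 : F)) = 1 := finrank_span_singleton one_ne_zero
    have h6 : RR.ell (Finsupp.single Y ((g : ℤ) + 1) : Divisor K F) =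
        finrank K (riemannRochSpace (Finsupp.single Y ((g : ℤ) + 1) : Divisor K F)) := rfl
    omega
  have htr : Transcendental K f := by
    intro h
    obtain ⟨a, ha⟩ := RR.mem_range_of_isAlgebraic h
    exact hfc a ha.symm
  have hf0 : f ≠ 0 := transcendental_ne_zero htr
  have hother : ∀ v : Place K F, v ≠ Y → 0 ≤ v.ord f := by
    classical
    intro v hv
    have h7 := ((mem_riemannRochSpace_iff.1 hf) v).resolve_left hf0
    rw [Finsupp.single_apply, if_neg (Ne.symm hv)] at h7
    omega
  refine ⟨f, htr, ?_, hother⟩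
  obtain ⟨v, hv⟩ := RR.exists_ord_neg_of_transcendental (K := K) htr
  by_cases hvY : v = Y
  · rw [← hvY]; exact hv
  · exact absurd (hother v hvY) (by omega)

/-- degrees along a morphism -/
theorem finrank_adjoin_map (φ : F →ₐ[K] F') (f : F) :
    finrank K⟮φ f⟯ F' = finrankAlong K φ * finrank K⟮f⟯ F := by
  letI := algebraAlong φ
  haveI := isScalarTower_along φ
  -- the isomorphism of the rational subfields
  have hmap : (K⟮f⟯).map φ = K⟮φ f⟯ := by
    rw [IntermediateField.adjoin_map, Set.image_singleton]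
  let e : K⟮f⟯ ≃ₐ[K] K⟮φ f⟯ :=
    (IntermediateField.equivMap K⟮f⟯ φ).trans (IntermediateField.equivOfEq hmap)
  have he : ∀ x : K⟮f⟯, ((e x : K⟮φ f⟯) : F') = φ (x : F) := fun x => rfl
  have h1 : finrank K⟮f⟯ F' = finrank K⟮φ f⟯ F' := by
    refine Algebra.finrank_eq_of_equiv_equiv e.toRingEquiv (RingEquiv.refl F') ?_
    ext x
    rfl
  rw [← h1, mul_comm]
  exact (Module.finrank_mul_finrank K⟮f⟯ F F').symm

/-- **ramification indices are bounded by the degree** -/
theorem ramificationIndexAlong_le (φ : F →ₐ[K] F') (hφ : φ.toRingHom.IsIntegral)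
    (w : Place K F') : Place.ramificationIndexAlong φ w ≤ finrankAlong K φ := by
  obtain ⟨f, hf, hneg, hother⟩ := exists_pole_only (w.restrictAlong φ hφ)
  have hφf : Transcendental K (φ f) := fun h =>
    hf ((isAlgebraic_algHom_iff φ φ.toRingHom.injective).1 h)
  have h1 := RR.degree_poleDiv (K := K) hφf
  have h2 := RR.degree_poleDiv (K := K) hf
  have h3 : RR.poleDiv (K := K) f = Finsupp.single (w.restrictAlong φ hφ)
      (-(w.restrictAlong φ hφ).ord f) := by
    classical
    ext v
    rw [RR.poleDiv_apply, Finsupp.single_apply]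
    split_ifs with h
    · rw [← h]; omega
    · have := hother v (Ne.symm h)
      omega
  have h4 := abs_apply_le_degree (RR.poleDiv_nonneg (K := K) (φ f)) w
  rw [h1, finrank_adjoin_map, RR.poleDiv_apply, Place.ord_restrictAlong φ hφ] at h4
  rw [h3, RR.degree_single'] at h2
  set m := (w.restrictAlong φ hφ).ord f with hm
  set e := Place.ramificationIndexAlong φ w with he
  rw [Nat.cast_mul, ← h2] at h4
  have h5 : (e : ℤ) * m ≤ 0 := mul_nonpos_of_nonneg_of_nonpos (by positivity) hneg.le
  rw [abs_of_nonneg (le_max_left _ _), max_eq_right (by linarith)] at h4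
  have h6 : (e : ℤ) * (-m) ≤ (finrankAlong K φ : ℤ) * (-m) := by linarith
  have h7 := le_of_mul_le_mul_right h6 (by linarith)
  exact_mod_cast h7

end Ramification

section Generic

variable {K k : Type*} [Field K] [Field k] {A : ValuationSubring K} {π : A →+* k}
  {F Fk F' Fk' : Type*} [Field F] [Algebra K F] [Field Fk] [Algebra k Fk] [Field F']
  [Algebra K F'] [Field Fk'] [Algebra k Fk'] {R : Red.ConstRed A π F Fk}
  {R' : Red.ConstRed A π F' Fk'} (S : Red.Spec R) (S' : Red.Spec R')

variable (R) in
/-- rigidity with constant reductions -/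
theorem eq_zero_of_red [IsAlgClosed K] [IsFnField K F] {ι : Type*}
    (δ : Divisor K F →+ (ι →₀ ℤ)) (C : ℤ) (hC : ∀ P Y, |δ (Finsupp.single P 1) Y| ≤ C)
    (h : ∀ (f : F) (z : Fk), R.IsRed f z → z ≠ 0 → ∀ D : Divisor K F, (∀ P, D P = P.ord f) →
      δ D = 0) (D : Divisor K F) (hD : Divisor.degree D = 0) : δ D = 0 := by
  refine eq_zero_of_bounded' δ C hC ?_ D hD
  rintro D ⟨f, hf, hD⟩
  obtain ⟨c, hc, z, hz, hred⟩ := R.exists_isRed_mul hf
  refine h _ z hred hz D fun P => ?_
  rw [hD, P.ord_mul (by simpa using hc) hf, FF.ord_algebraMap, zero_add]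

theorem mapDomain_nonneg {D : Divisor K F} (hD : 0 ≤ D) : 0 ≤ Finsupp.mapDomain S.r D := by
  classical
  intro Q
  rw [Red.mapDomain_apply_sum]
  exact Finset.sum_nonneg fun P _ => hD P

theorem degree_mapDomain' (D : Divisor K F) :
    Divisor.degree (Finsupp.mapDomain S.r D) = Divisor.degree D := by
  induction D using Finsupp.induction with
  | zero => simp
  | single_add P n D _ _ ih =>
    rw [Finsupp.mapDomain_add, map_add, map_add, ih, Finsupp.mapDomain_single,
      Divisor.degree_single, Divisor.degree_single, S.deg_eq]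

variable [IsAlgClosed K] [IsAlgClosed k] [IsFnField K F] [IsFnField K F'] [IsFnField k Fk]
  [IsFnField k Fk']

/-- **specialisation commutes with pull-back** -/
theorem spec_pullback [HasPrincipalDivisors K F'] [HasPrincipalDivisors k Fk']
    (φ : F →ₐ[K] F') (φk : Fk →ₐ[k] Fk') (hφ : φ.toRingHom.IsIntegral)
    (hφk : φk.toRingHom.IsIntegral) (hFI : FundamentalIdentityAlong K φ hφ)
    (hc : ∀ f z, R.IsRed f z → R'.IsRed (φ f) (φk z)) (D : Divisor K F)
    (hD : Divisor.degree D = 0) :
    Finsupp.mapDomain S'.r (Divisor.pullbackAlong φ hφ D) =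
      Divisor.pullbackAlong φk hφk (Finsupp.mapDomain S.r D) := by
  rw [← sub_eq_zero]
  let δ : Divisor K F →+ Divisor k Fk' :=
    (Finsupp.mapDomain.addMonoidHom S'.r).comp (Divisor.pullbackAlong φ hφ) -
      (Divisor.pullbackAlong φk hφk).comp (Finsupp.mapDomain.addMonoidHom S.r)
  have hδ : ∀ D, δ D = Finsupp.mapDomain S'.r (Divisor.pullbackAlong φ hφ D) -
      Divisor.pullbackAlong φk hφk (Finsupp.mapDomain S.r D) := fun D => rfl
  rw [← hδ]
  refine eq_zero_of_red R δ (finrankAlong K φ + finrankAlong k φk) ?_ ?_ D hD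
  · intro P Y
    rw [hδ, Finsupp.sub_apply]
    refine (abs_sub _ _).trans (add_le_add ?_ ?_)
    · have h1 := abs_apply_le_degree (mapDomain_nonneg S' (pullbackAlong_nonneg φ hφ
        (single_nonneg P))) Y
      rw [degree_mapDomain' S', Divisor.degree_pullbackAlong _ _ hFI, RR.degree_single',
        mul_one] at h1
      exact h1
    · rw [Finsupp.mapDomain_single, Divisor.pullbackAlong_apply, abs_mul, Nat.abs_cast]
      have h2 : |(Finsupp.single (S.r P) (1 : ℤ)) (Y.restrictAlong φk hφk)| ≤ 1 := by
        classical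
        rw [Finsupp.single_apply]
        split_ifs <;> norm_num
      refine (mul_le_of_le_one_right (by positivity) h2).trans ?_
      exact_mod_cast ramificationIndexAlong_le φk hφk Y
  · intro f z hfz hz D hD
    rw [hδ, sub_eq_zero]
    ext Q
    have h1 : ∀ w, Divisor.pullbackAlong φ hφ D w = w.ord (φ f) := by
      intro w
      rw [Divisor.pullbackAlong_apply, hD, Place.ord_restrictAlong _ hφ]
    have hz' : φk z ≠ 0 := fun h0 => hz ((map_eq_zero_iff φk φk.toRingHom.injective).1 h0)
    rw [S'.ord_eq (φ f) (φk z) (hc f z hfz) hz' _ h1 Q, Divisor.pullbackAlong_apply,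
      S.ord_eq f z hfz hz D hD, Place.ord_restrictAlong _ hφk]

/-- **specialisation commutes with push-forward** -/
theorem spec_pushforward (φ : F →ₐ[K] F') (φk : Fk →ₐ[k] Fk') (hφ : φ.toRingHom.IsIntegral)
    (hφk : φk.toRingHom.IsIntegral) (hfin : FiniteAlong K φ) (hfink : FiniteAlong k φk)
    (hN : NormFormulaAlong K φ hfin) (hNk : NormFormulaAlong k φk hfink)
    (hc : ∀ f z, R'.IsRed f z → R.IsRed (normAlong φ f) (normAlong φk z)) (D : Divisor K F')
    (hD : Divisor.degree D = 0) :
    Finsupp.mapDomain S.r (Divisor.pushforwardAlong φ hφ D) =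
      Divisor.pushforwardAlong φk hφk (Finsupp.mapDomain S'.r D) := by
  rw [← sub_eq_zero]
  let δ : Divisor K F' →+ Divisor k Fk :=
    (Finsupp.mapDomain.addMonoidHom S.r).comp (Divisor.pushforwardAlong φ hφ) -
      (Divisor.pushforwardAlong φk hφk).comp (Finsupp.mapDomain.addMonoidHom S'.r)
  have hδ : ∀ D, δ D = Finsupp.mapDomain S.r (Divisor.pushforwardAlong φ hφ D) -
      Divisor.pushforwardAlong φk hφk (Finsupp.mapDomain S'.r D) := fun D => rfl
  rw [← hδ]
  refine eq_zero_of_red R' δ (1 + 1) ?_ ?_ D hD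
  · intro P Y
    rw [hδ, Finsupp.sub_apply]
    refine (abs_sub _ _).trans (add_le_add ?_ ?_)
    · have h1 := abs_apply_le_degree (mapDomain_nonneg S (pushforwardAlong_nonneg φ hφ
        (single_nonneg P))) Y
      rw [degree_mapDomain' S, Divisor.degree_pushforwardAlong, RR.degree_single'] at h1
      exact h1
    · have h1 := abs_apply_le_degree (pushforwardAlong_nonneg φk hφk
        (mapDomain_nonneg S' (single_nonneg P))) Y
      rw [Divisor.degree_pushforwardAlong, degree_mapDomain' S', RR.degree_single'] at h1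
      exact h1
  · intro f z hfz hz D hD
    rw [hδ, sub_eq_zero]
    ext Q
    have hf : f ≠ 0 := hfz.ne_zero hz
    have h1 := pushforwardAlong_apply_of_ord φ hφ hfin hN hf hD
    have hz' : normAlong φk z ≠ 0 := normAlong_ne_zero φk hfink hz
    rw [S.ord_eq _ _ (hc f z hfz) hz' _ h1 Q]
    exact (pushforwardAlong_apply_of_ord φk hφk hfink hNk hz (S'.ord_eq f z hfz hz D hD) Q).symm

end Generic

end Fermat.Agent.ESh
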